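import Fermat.Agent.S05.Congr

/-!
# HW / AtP (E-side at `p`): quantitative version of `S05.sub_eq_zero_or_nonintegral`

Two integral points `P, Q` with `x(P) - x(Q), y(P) - y(Q) ∈ c 𝔪`, nonsingular reduction at `Q`:
`P = Q` or `c² x(P - Q)` is not integral.
-/

set_option autoImplicit false

namespace Fermat.Agent.HW.AtP

open WeierstrassCurve WeierstrassCurve.Affine WeierstrassCurve.Affine.Point
open Fermat.Agent.S05

section aux

variable {K : Type*} [Field K] {Γ₀ : Type*} [LinearOrderedCommGroupWithZero Γ₀]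
  (v : Valuation K Γ₀)

/-- `v (c l) ≤ 1`, `v d < v c` ⟹ `v (l d) < 1`. -/
lemma val_mul_lt_one_of_scaled {c l d : K} (hc0 : c ≠ 0) (hl : v (c * l) ≤ 1) (hd : v d < v c) :
    v (l * d) < 1 := by
  have hc : 0 < v c := by
    rw [Valuation.pos_iff]; exact hc0
  have h1 : v (l * d) * v c < 1 * v c := by
    have e : v (l * d) * v c = v (c * l) * v d := by
      rw [← map_mul, ← map_mul]; congr 1; ring
    rw [e, one_mul]
    exact lt_of_le_of_lt (mul_le_of_le_one_left' hl) hd
  exact lt_of_mul_lt_mul_right' h1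

end aux

theorem sub_eq_zero_or_large {K : Type*} [Field K] [DecidableEq K] {Γ₀ : Type*}
    [LinearOrderedCommGroupWithZero Γ₀] (v : Valuation K Γ₀) {W : WeierstrassCurve.Affine K}
    (h₁ : v W.a₁ ≤ 1) (h₂ : v W.a₂ ≤ 1)
    {P Q : W.Point} (hP : P ≠ 0) (hQ : Q ≠ 0)
    (hxP : v (xc P) ≤ 1) (hyP : v (yc P) ≤ 1) (hxQ : v (xc Q) ≤ 1) (hyQ : v (yc Q) ≤ 1)
    {c : K} (hc0 : c ≠ 0) (hc : v c ≤ 1)
    (hx : v (xc P - xc Q) < v c) (hy : v (yc P - yc Q) < v c)
    (hns : v (W.a₁ * yc Q - (3 * xc Q ^ 2 + 2 * W.a₂ * xc Q + W.a₄)) = 1 ∨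
      v (2 * yc Q + W.a₁ * xc Q + W.a₃) = 1) :
    P - Q = 0 ∨ 1 < v (c ^ 2 * xc (P - Q)) := by
  cases P with
  | zero => exact absurd rfl hP
  | some x1 y1 n1 =>
  cases Q with
  | zero => exact absurd rfl hQ
  | some x2 y2 n2 =>
  simp only [xc_some, yc_some] at hxP hyP hxQ hyQ hx hy hns
  have e1 := (equation_iff _ _).1 n1.1
  have e2 := (equation_iff _ _).1 n2.1
  have v2 : v (2 : K) ≤ 1 := by simpa using val_natCast_le_one v 2
  have v3 : v (3 : K) ≤ 1 := by simpa using val_natCast_le_one v 3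
  have hx1 : v (x1 - x2) < 1 := lt_of_lt_of_le hx hc
  have hy1 : v (y1 - y2) < 1 := lt_of_lt_of_le hy hc
  have hc2 : v (c ^ 2) ≤ 1 := by rw [map_pow]; exact pow_le_one' hc 2
  suffices H : Point.some x1 y1 n1 - Point.some x2 y2 n2 ≠ 0 →
      v (c ^ 2 * xc (Point.some x1 y1 n1 - Point.some x2 y2 n2)) ≤ 1 →
      v (W.a₁ * y2 - (3 * x2 ^ 2 + 2 * W.a₂ * x2 + W.a₄)) < 1 ∧
        v (2 * y2 + W.a₁ * x2 + W.a₃) < 1 by
    by_cases h0 : Point.some x1 y1 n1 - Point.some x2 y2 n2 = 0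
    · exact Or.inl h0
    · right
      by_contra hle
      push Not at hle
      obtain ⟨hA, hB⟩ := H h0 hle
      rcases hns with h | h
      · exact absurd h hA.ne
      · exact absurd h hB.ne
  intro h0 hle
  rw [sub_eq_add_neg, neg_some] at h0 hle
  by_cases hxx : x1 = x2
  · subst hxx
    have hyy : y1 ≠ y2 := by
      rintro rfl
      exact h0 (add_of_Y_eq rfl (negY_negY _ _).symm)
    have hneg : y1 = W.negY x1 y2 := by
      have : (y1 - y2) * (y1 - W.negY x1 y2) = 0 := by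
        simp only [negY]
        linear_combination e1 - e2
      rcases mul_eq_zero.1 this with h | h
      · exact absurd (sub_eq_zero.1 h) hyy
      · exact sub_eq_zero.1 h
    have hY : y1 ≠ W.negY x1 (W.negY x1 y2) := by
      rw [negY_negY]; exact hyy
    rw [add_of_Y_ne hY] at hle
    simp only [xc_some, addX] at hle
    set l := W.slope x1 x1 y1 (W.negY x1 y2) with hl
    have hslope : l * (y1 - y2) = 3 * x1 ^ 2 + 2 * W.a₂ * x1 + W.a₄ - W.a₁ * y1 := by
      rw [hl, slope_of_Y_ne rfl hY]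
      have : y1 - W.negY x1 y1 = y1 - y2 := by
        rw [hneg]; simp only [negY]; ring
      rw [this]
      have hd : y1 - y2 ≠ 0 := sub_ne_zero.2 hyy
      field_simp
    have hlint : v (c * l) ≤ 1 := by
      refine val_le_one_of_quadratic v (a := W.a₁ * c) (val_mul_le_one v h₁ hc)
        (c := c ^ 2 * (l ^ 2 + W.a₁ * l - W.a₂ - x1 - x1) + c ^ 2 * (W.a₂ + x1 + x1))
        ?_ (by ring)
      exact val_add_le_one v hle (val_mul_le_one v hc2
        (val_add_le_one v (val_add_le_one v h₂ hxP) hxP))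
    have hly : v (l * (y1 - y2)) < 1 := val_mul_lt_one_of_scaled v hc0 hlint hy
    constructor
    · have : W.a₁ * y2 - (3 * x1 ^ 2 + 2 * W.a₂ * x1 + W.a₄)
          = -(l * (y1 - y2)) - W.a₁ * (y1 - y2) := by
        rw [hslope]; ring
      rw [this]
      refine val_sub_lt_one v ?_ (val_mul_lt_one_right v h₁ hy1)
      rw [Valuation.map_neg]
      exact hly
    · have : 2 * y2 + W.a₁ * x1 + W.a₃ = -(y1 - y2) := by
        rw [hneg]; simp only [negY]; ring
      rw [this, Valuation.map_neg]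
      exact hy1
  · rw [add_of_X_ne hxx] at hle
    simp only [xc_some, addX] at hle
    set l := W.slope x1 x2 y1 (W.negY x2 y2) with hl
    have hd : x1 - x2 ≠ 0 := sub_ne_zero.2 hxx
    have hslope : l * (x1 - x2) = y1 + y2 + W.a₁ * x2 + W.a₃ := by
      rw [hl, slope_of_X_ne hxx]
      simp only [negY]
      field_simp
      ring
    have hlint : v (c * l) ≤ 1 := by
      refine val_le_one_of_quadratic v (a := W.a₁ * c) (val_mul_le_one v h₁ hc)
        (c := c ^ 2 * (l ^ 2 + W.a₁ * l - W.a₂ - x1 - x2) + c ^ 2 * (W.a₂ + x1 + x2))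
        ?_ (by ring)
      exact val_add_le_one v hle (val_mul_le_one v hc2
        (val_add_le_one v (val_add_le_one v h₂ hxP) hxQ))
    have hslope2 : l * (y1 - y2) =
        x1 ^ 2 + x1 * x2 + x2 ^ 2 + W.a₂ * (x1 + x2) + W.a₄ - W.a₁ * y1 := by
      apply mul_right_cancel₀ hd
      linear_combination (y1 - y2) * hslope + e1 - e2
    have hly : v (l * (y1 - y2)) < 1 := val_mul_lt_one_of_scaled v hc0 hlint hy
    have hlx : v (l * (x1 - x2)) < 1 := val_mul_lt_one_of_scaled v hc0 hlint hx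
    constructor
    · have : W.a₁ * y2 - (3 * x2 ^ 2 + 2 * W.a₂ * x2 + W.a₄)
          = (x1 - x2) * (x1 + 2 * x2 + W.a₂) - W.a₁ * (y1 - y2) - l * (y1 - y2) := by
        rw [hslope2]; ring
      rw [this]
      refine val_sub_lt_one v (val_sub_lt_one v (val_mul_lt_one_left v hx1 ?_)
        (val_mul_lt_one_right v h₁ hy1)) hly
      exact val_add_le_one v (val_add_le_one v hxP (val_mul_le_one v v2 hxQ)) h₂
    · have : 2 * y2 + W.a₁ * x2 + W.a₃ = l * (x1 - x2) - (y1 - y2) := by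
        rw [hslope]; ring
      rw [this]
      exact val_sub_lt_one v hlx hy1

end Fermat.Agent.HW.AtP
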