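import Fermat.Agent.HW.AtP.Bound
import Fermat.Agent.HW.AtP.Dist
import Fermat.Agent.S05.GoodRed

/-!
# HW / AtP (E-side at `p`): abstract Galois lemmas

`(σ, s)` = an "inertia element" acting on `K` and on the points (`S05.GalData`).
* `nonintegral_of_eigen` : good reduction, `s t = c t`, `c ≢ 1 mod p` ⟹ `x(t)` is not integral;
* `prod_lineX_fixed` : `s t ∈ ⟨t⟩` ⟹ `σ` fixes `∏_{x ∈ lineX t (p-1)} x`;
* `exists_coord_far` : good reduction, `P ∈ E[p]` integral, `s P ≠ P`, `v λ ^ (p-1) = v p` ⟹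
  `v λ ≤ v (σ x_P - x_P)` or `v λ ≤ v (σ y_P - y_P)`.
-/

set_option autoImplicit false

namespace Fermat.Agent.HW.AtP

open WeierstrassCurve WeierstrassCurve.Affine WeierstrassCurve.Affine.Point
open Fermat.Agent.S05 Fermat.Agent.S13

variable {K : Type*} [Field K] [DecidableEq K] {A : ValuationSubring K}
  {W : WeierstrassCurve.Affine K} {p : ℕ} {σ : K →+* K} {s : W.Point →+ W.Point}

theorem nonintegral_of_eigen_of_hns (I : IntData A W) (D : PData A p) (G : GalData A W σ s)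
    {t : W.Point} (ht : t ≠ 0) (hpt : p • t = 0) {c : ℕ}
    (hc : ¬ (p : ℤ) ∣ (c : ℤ) - 1) (hst : s t = c • t)
    (hns : A.valuation (xc t) ≤ 1 →
      A.valuation (W.a₁ * yc t - (3 * xc t ^ 2 + 2 * W.a₂ * xc t + W.a₄)) = 1 ∨
      A.valuation (2 * yc t + W.a₁ * xc t + W.a₃) = 1) : 1 < A.valuation (xc t) := by
  by_contra hcon
  have hx : A.valuation (xc t) ≤ 1 := not_lt.1 hcon
  have hy : A.valuation (yc t) ≤ 1 := y_integral A I.h₁ I.h₂ I.h₃ I.h₄ I.h₆ ht hx
  obtain ⟨hs0, hsx, hsy⟩ := G.hs t ht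
  have hns := hns hx
  have key := sub_eq_zero_or_nonintegral A.valuation
    ((A.valuation_le_one_iff _).2 I.h₁) ((A.valuation_le_one_iff _).2 I.h₂)
    ((A.valuation_le_one_iff _).2 I.h₃) ((A.valuation_le_one_iff _).2 I.h₄)
    hs0 ht (by rw [hsx]; exact G.val_le hx) (by rw [hsy]; exact G.val_le hy) hx hy
    (by rw [hsx]; exact G.hσ _ hx) (by rw [hsy]; exact G.hσ _ hy) hns
  have hw : s t - t = ((c : ℤ) - 1) • t := by
    rw [hst, sub_smul, natCast_zsmul, one_smul]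
  have hw0 : s t - t ≠ 0 := by
    rw [hw]
    intro h
    exact hc ((zsmul_eq_zero_iff_dvd D.hp ht hpt _).1 h)
  have hpw : p • (s t - t) = 0 := by
    rw [hw, smul_comm, hpt, smul_zero]
  rcases key with h | h
  · exact hw0 h
  · have hcop : IsCoprime (p : ℤ) ((c : ℤ) - 1) :=
      (Prime.coprime_iff_not_dvd (Nat.prime_iff_prime_int.1 D.hp)).2 hc
    obtain ⟨a, b, hab⟩ := hcop
    have hb : ¬ (p : ℤ) ∣ b := by
      intro hdvd
      have h1 : (p : ℤ) ∣ a * p + b * ((c : ℤ) - 1) :=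
        dvd_add (Dvd.intro_left _ rfl) (Dvd.dvd.mul_right hdvd _)
      rw [hab] at h1
      exact (Nat.prime_iff_prime_int.1 D.hp).not_dvd_one h1
    have htw : b • (s t - t) = t := by
      rw [hw, ← mul_smul]
      have : b * ((c : ℤ) - 1) = 1 - a * p := by linear_combination hab
      rw [this, sub_smul, one_smul, mul_smul, natCast_zsmul, hpt, smul_zero, sub_zero]
    obtain ⟨m, hm1, hm2, hm⟩ := exists_nat_rep D.hp hpw b hb
    have hpm : ¬ p ∣ m := by
      intro hd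
      have := Nat.le_of_dvd (by omega) hd
      have := D.hp.pos
      omega
    have h2 := (val_xc_nsmul A.valuation ((A.valuation_le_one_iff _).2 I.b₂)
      ((A.valuation_le_one_iff _).2 I.b₄) ((A.valuation_le_one_iff _).2 I.b₆)
      ((A.valuation_le_one_iff _).2 I.b₈) hw0 h (D.val_natCast hpm)).2
    rw [← hm, htw] at h2
    rw [h2] at hcon
    exact hcon h

theorem nonintegral_of_eigen (I : IntData A W) (D : PData A p) (G : GalData A W σ s)
    (hΔ : A.valuation W.Δ = 1) {t : W.Point} (ht : t ≠ 0) (hpt : p • t = 0) {c : ℕ}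
    (hc : ¬ (p : ℤ) ∣ (c : ℤ) - 1) (hst : s t = c • t) : 1 < A.valuation (xc t) :=
  nonintegral_of_eigen_of_hns I D G ht hpt hc hst fun hx =>
    hns_of_unit_disc A I.h₁ I.h₂ I.h₃ I.h₄ hΔ ht hx (y_integral A I.h₁ I.h₂ I.h₃ I.h₄ I.h₆ ht hx)

lemma nsmul_eq_mod_nsmul {t : W.Point} (hpt : p • t = 0) (a : ℕ) : a • t = (a % p) • t := by
  conv_lhs => rw [← Nat.div_add_mod a p]
  rw [add_smul, mul_smul, smul_comm, hpt, smul_zero, zero_add]

theorem prod_lineX_fixed (hp : p.Prime)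
    (hs : ∀ P : W.Point, P ≠ 0 → s P ≠ 0 ∧ xc (s P) = σ (xc P) ∧ yc (s P) = σ (yc P))
    {t : W.Point} (ht : t ≠ 0) (hpt : p • t = 0) {c : ℕ} (hst : s t = c • t) :
    σ (∏ x ∈ lineX t (p - 1), x) = ∏ x ∈ lineX t (p - 1), x := by
  have hp1 : p - 1 < p := Nat.sub_lt hp.pos one_pos
  have hc : ¬ p ∣ c := by
    intro hd
    obtain ⟨m, rfl⟩ := hd
    apply (hs t ht).1
    rw [hst, mul_smul, smul_comm, hpt, smul_zero]
  have hsub : (lineX t (p - 1)).image σ ⊆ lineX t (p - 1) := by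
    intro y hy
    obtain ⟨x, hx, rfl⟩ := Finset.mem_image.1 hy
    obtain ⟨k, hk, rfl⟩ := Finset.mem_image.1 hx
    have hk' : ¬ p ∣ k := not_dvd_of_mem_Icc hp1 hk
    have h0 : k • t ≠ 0 := nsmul_ne_zero_of_not_dvd hp ht hpt hk'
    rw [← (hs _ h0).2.1, map_nsmul, hst, ← mul_smul, nsmul_eq_mod_nsmul hpt]
    refine Finset.mem_image.2 ⟨(k * c) % p, ?_, rfl⟩
    have h1 : (k * c) % p ≠ 0 := by
      intro h
      rcases (hp.dvd_mul).1 (Nat.dvd_of_mod_eq_zero h) with h | h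
      · exact hk' h
      · exact hc h
    have h2 : (k * c) % p < p := Nat.mod_lt _ hp.pos
    rw [Finset.mem_Icc]
    omega
  have heq : (lineX t (p - 1)).image σ = lineX t (p - 1) :=
    Finset.eq_of_subset_of_card_le hsub
      (by rw [Finset.card_image_of_injective _ σ.injective])
  rw [map_prod]
  conv_rhs => rw [← heq]
  rw [Finset.prod_image (fun x _ y _ h => σ.injective h)]

theorem one_lt_val_prod_lineX (I : IntData A W) (D : PData A p) {t : W.Point} (ht : t ≠ 0)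
    (hxt : 1 < A.valuation (xc t)) : 1 < A.valuation (∏ x ∈ lineX t (p - 1), x) := by
  have hp1 : p - 1 < p := Nat.sub_lt D.hp.pos one_pos
  rw [map_prod, Finset.prod_congr rfl (fun x hx => val_of_mem_lineX I D ht hxt hp1 hx),
    Finset.prod_const]
  refine one_lt_pow₀ hxt ?_
  have : xc (1 • t) ∈ lineX t (p - 1) :=
    Finset.mem_image.2 ⟨1, Finset.mem_Icc.2 ⟨le_rfl, by have := D.hp.two_le; omega⟩, rfl⟩
  exact (Finset.card_pos.2 ⟨_, this⟩).ne'

theorem exists_coord_far_of_hns (I : IntData A W) (D : PData A p) (G : GalData A W σ s)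
    {P : W.Point} (hP : P ≠ 0) (hpP : p • P = 0)
    (hxP : A.valuation (xc P) ≤ 1)
    (hns : A.valuation (W.a₁ * yc P - (3 * xc P ^ 2 + 2 * W.a₂ * xc P + W.a₄)) = 1 ∨
      A.valuation (2 * yc P + W.a₁ * xc P + W.a₃) = 1) (hsP : s P ≠ P) {lam : K}
    (hlam : A.valuation lam ^ (p - 1) = A.valuation (p : K)) :
    A.valuation lam ≤ A.valuation (σ (xc P) - xc P) ∨
      A.valuation lam ≤ A.valuation (σ (yc P) - yc P) := by
  by_contra hcon
  push Not at hcon
  obtain ⟨hdx, hdy⟩ := hcon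
  obtain ⟨j, hj1, hj⟩ := D.exists_half
  have hyP : A.valuation (yc P) ≤ 1 := y_integral A I.h₁ I.h₂ I.h₃ I.h₄ I.h₆ hP hxP
  obtain ⟨hs0, hsx, hsy⟩ := G.hs P hP
  have hlam0 : lam ≠ 0 := by
    rintro rfl
    rw [_root_.map_zero, zero_pow (by omega)] at hlam
    exact D.hp0 ((map_eq_zero _).1 hlam.symm)
  have hlam1 : A.valuation lam ≤ 1 := by
    by_contra h
    have h1 : 1 ≤ A.valuation lam ^ (p - 1) := one_le_pow₀ (not_le.1 h).le
    rw [hlam] at h1
    exact absurd D.hpA (not_lt.2 h1)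
  have key := sub_eq_zero_or_large A.valuation
    ((A.valuation_le_one_iff _).2 I.h₁) ((A.valuation_le_one_iff _).2 I.h₂)
    hs0 hP (by rw [hsx]; exact G.val_le hxP) (by rw [hsy]; exact G.val_le hyP) hxP hyP
    hlam0 hlam1 (by rw [hsx]; exact hdx) (by rw [hsy]; exact hdy) hns
  have hu0 : s P - P ≠ 0 := sub_ne_zero.2 hsP
  have hpu : p • (s P - P) = 0 := by
    rw [smul_sub, ← map_nsmul, hpP, _root_.map_zero, sub_zero]
  rcases key with h | h
  · exact hu0 h
  · have hb := torsion_bound I D hu0 hpu hj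
    have e : A.valuation (p : K) * A.valuation (xc (s P - P)) ^ j
        = A.valuation (lam ^ 2 * xc (s P - P)) ^ j := by
      rw [← hlam, map_mul, mul_pow, map_pow, ← pow_mul]
      congr 2
      omega
    rw [e] at hb
    exact absurd hb (not_le.2 (one_lt_pow₀ h (by omega)))

theorem exists_coord_far (I : IntData A W) (D : PData A p) (G : GalData A W σ s)
    (hΔ : A.valuation W.Δ = 1) {P : W.Point} (hP : P ≠ 0) (hpP : p • P = 0)
    (hxP : A.valuation (xc P) ≤ 1) (hsP : s P ≠ P) {lam : K}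
    (hlam : A.valuation lam ^ (p - 1) = A.valuation (p : K)) :
    A.valuation lam ≤ A.valuation (σ (xc P) - xc P) ∨
      A.valuation lam ≤ A.valuation (σ (yc P) - yc P) :=
  exists_coord_far_of_hns I D G hP hpP hxP
    (hns_of_unit_disc A I.h₁ I.h₂ I.h₃ I.h₄ hΔ hP hxP
      (y_integral A I.h₁ I.h₂ I.h₃ I.h₄ I.h₆ hP hxP)) hsP hlam

end Fermat.Agent.HW.AtP
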