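import Fermat.Agent.S13.LadderLink

/-!
# HW / AtP (E-side at `p`): multiples of a point with non-integral `x`-coordinate

`x(P)` not integral, `k` a unit ⟹ `k P ≠ 0` and `v (x (k P)) = v (x P)`.
-/

set_option autoImplicit false

namespace Fermat.Agent.HW.AtP

open Polynomial WeierstrassCurve WeierstrassCurve.Affine WeierstrassCurve.Affine.Point
open Fermat.Agent.S05 Fermat.Agent.S13

variable {K : Type*} [Field K] {Γ₀ : Type*} [LinearOrderedCommGroupWithZero Γ₀]
  (v : Valuation K Γ₀)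

/-- the leading term dominates at a non-integral argument. -/
lemma val_eval₂_eq {f : (v.integer)[X]} {d : ℕ} {a : v.integer} (hf : DL f d a)
    (ha : v (a : K) = 1) {x : K} (hx : 1 < v x) :
    v (f.eval₂ v.integer.subtype x) = v x ^ d := by
  have hpos : 0 < v x := lt_trans zero_lt_one hx
  rw [eval₂_eq_sum_range' v.integer.subtype (Nat.lt_succ_of_le hf.1) x, Finset.sum_range_succ,
    hf.2]
  have h2 : v (v.integer.subtype a * x ^ d) = v x ^ d := by
    rw [map_mul, map_pow]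
    change v (a : K) * _ = _
    rw [ha, one_mul]
  have h1 : v (∑ i ∈ Finset.range d, v.integer.subtype (f.coeff i) * x ^ i) < v x ^ d := by
    refine Valuation.map_sum_lt v (pow_pos hpos d).ne' ?_
    intro i hi
    rw [map_mul, map_pow]
    have hc : v (v.integer.subtype (f.coeff i)) ≤ 1 := (f.coeff i).2
    refine lt_of_le_of_lt (mul_le_of_le_one_left' hc) ?_
    exact pow_lt_pow_right₀ hx (Finset.mem_range.1 hi)
  rw [← h2] at h1 ⊢
  exact Valuation.map_add_eq_of_lt_right v h1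

variable [DecidableEq K] {W : WeierstrassCurve.Affine K}

theorem val_xc_nsmul (hb₂ : v W.b₂ ≤ 1) (hb₄ : v W.b₄ ≤ 1) (hb₆ : v W.b₆ ≤ 1) (hb₈ : v W.b₈ ≤ 1)
    {P : W.Point} (hP : P ≠ 0) (hx : 1 < v (xc P)) {k : ℕ} (hk : v (k : K) = 1) :
    k • P ≠ 0 ∧ v (xc (k • P)) = v (xc P) := by
  have hk1 : 1 ≤ k := by
    rcases Nat.eq_zero_or_pos k with rfl | h
    · simp at hk
    · exact h
  have hpos : 0 < v (xc P) := lt_trans zero_lt_one hx
  set b2 : v.integer := ⟨W.b₂, hb₂⟩ with hb2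
  set b4 : v.integer := ⟨W.b₄, hb₄⟩ with hb4
  set b6 : v.integer := ⟨W.b₆, hb₆⟩ with hb6
  set b8 : v.integer := ⟨W.b₈, hb₈⟩ with hb8
  set φ : (v.integer)[X] →+* K := eval₂RingHom v.integer.subtype (xc P) with hφ
  have e : par W (xc P) = (polyPar b2 b4 b6 b8).map φ := by
    simp [polyPar, LadPar.map, par, hφ, hb2, hb4, hb6, hb8]
  have rep := (rep_lad hP k).1
  rw [e, lad_map] at rep
  obtain ⟨i1, i2, -, -⟩ := ladInv b2 b4 b6 b8 k hk1
  have v1 : v (φ (lad (polyPar b2 b4 b6 b8) k).1.1) = v (xc P) ^ (k ^ 2) :=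
    val_eval₂_eq v i1 (by simp) hx
  have v2 : v (φ (lad (polyPar b2 b4 b6 b8) k).1.2) = v (xc P) ^ (k ^ 2 - 1) :=
    val_eval₂_eq v i2 (by push_cast; rw [map_pow, hk, one_pow]) hx
  rcases rep with ⟨-, h2, -⟩ | ⟨h1, -, h3⟩
  · exfalso
    simp only [Prod.map_fst, Prod.map_snd] at h2
    rw [h2, _root_.map_zero] at v2
    exact (pow_pos hpos _).ne v2
  · refine ⟨h1, ?_⟩
    simp only [Prod.map_fst, Prod.map_snd] at h3
    rw [h3, map_mul, v2] at v1
    obtain ⟨m, hm⟩ : ∃ m, k ^ 2 = m + 1 := ⟨k ^ 2 - 1, by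
      have : 1 ≤ k ^ 2 := Nat.one_le_pow _ _ hk1
      omega⟩
    rw [hm, Nat.add_sub_cancel, pow_succ, mul_comm] at v1
    exact mul_left_cancel₀ (pow_pos hpos _).ne' v1

end Fermat.Agent.HW.AtP
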