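import Fermat.Agent.HW.AtP.Gauss
import Fermat.Agent.HW.AtP.Mult
import Fermat.Agent.S13.LadderTors
import Fermat.Agent.S05.Main

/-!
# HW / AtP (E-side at `p`): the torsion bound

`A` a valuation ring of `K` of residue characteristic `p` (odd prime, `p ≠ 0` in `K`), `W` a
Weierstrass curve with integral coefficients.

* `torsion_prod_bound` : `v p * ∏_{x ∈ S} max 1 (v x) ≤ 1` for every finite set `S` of
  `x`-coordinates of nonzero `p`-torsion points;
* `torsion_bound` : `v p * v (x u) ^ ((p-1)/2) ≤ 1` for `0 ≠ u ∈ E[p]`;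
* `integral_of_not_mem_line` : if `t ∈ E[p]` is not integral and
  `1 ≤ v p * v (∏_{x ∈ lineX t (p-1)} x)`, then every `p`-torsion point outside `⟨t⟩` is integral.
-/

set_option autoImplicit false

namespace Fermat.Agent.HW.AtP

open Polynomial WeierstrassCurve WeierstrassCurve.Affine WeierstrassCurve.Affine.Point
open Fermat.Agent.S05 Fermat.Agent.S13

variable {K : Type*} [Field K] [DecidableEq K] {A : ValuationSubring K}
  {W : WeierstrassCurve.Affine K}

/-- arithmetic data at `p`. -/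
structure PData (A : ValuationSubring K) (p : ℕ) : Prop where
  hp : p.Prime
  hp2 : p ≠ 2
  hpA : A.valuation (p : K) < 1
  hp0 : (p : K) ≠ 0

variable {p : ℕ}

omit [DecidableEq K] in
lemma PData.val_natCast (D : PData A p) {k : ℕ} (hk : ¬ p ∣ k) : A.valuation (k : K) = 1 :=
  valuation_natCast_eq_one A D.hp D.hpA hk

omit [DecidableEq K] in
lemma PData.exists_half (D : PData A p) : ∃ j : ℕ, 1 ≤ j ∧ p = 2 * j + 1 := by
  obtain ⟨j, hj⟩ := D.hp.odd_of_ne_two D.hp2
  have := D.hp.two_le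
  exact ⟨j, by omega, hj⟩

theorem torsion_prod_bound (I : IntData A W) (D : PData A p) (S : Finset K)
    (hS : ∀ x ∈ S, ∃ P : W.Point, P ≠ 0 ∧ p • P = 0 ∧ xc P = x) :
    A.valuation (p : K) * ∏ x ∈ S, max 1 (A.valuation x) ≤ 1 := by
  obtain ⟨j, hj, rfl⟩ := D.exists_half
  have hchar : (2 * (j : K) + 1) ≠ 0 := by
    have := D.hp0
    push_cast at this
    exact this
  set v := A.valuation with hv
  have hb₂ : v W.b₂ ≤ 1 := (A.valuation_le_one_iff _).2 I.b₂
  have hb₄ : v W.b₄ ≤ 1 := (A.valuation_le_one_iff _).2 I.b₄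
  have hb₆ : v W.b₆ ≤ 1 := (A.valuation_le_one_iff _).2 I.b₆
  have hb₈ : v W.b₈ ≤ 1 := (A.valuation_le_one_iff _).2 I.b₈
  set f := torsPoly W.b₂ W.b₄ W.b₆ W.b₈ j with hf
  have hf0 : f ≠ 0 := torsPoly_ne_zero j hj hchar
  have hcoef : ∀ i, v (f.coeff i) ≤ 1 := by
    intro i
    have e : f = (torsPoly (⟨W.b₂, hb₂⟩ : v.integer) ⟨W.b₄, hb₄⟩ ⟨W.b₆, hb₆⟩ ⟨W.b₈, hb₈⟩ j).map
        v.integer.subtype := by
      rw [torsPoly_map]; rfl
    rw [e, coeff_map]
    exact ((torsPoly (⟨W.b₂, hb₂⟩ : v.integer) ⟨W.b₄, hb₄⟩ ⟨W.b₆, hb₆⟩ ⟨W.b₈, hb₈⟩ j).coeff i).2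
  have hlc : f.leadingCoeff = -(2 * (j : K) + 1) := by
    rw [leadingCoeff, natDegree_torsPoly j hj hchar]
    exact (DL_torsPoly W.b₂ W.b₄ W.b₆ W.b₈ j hj).2
  have h := leadingCoeff_bound v hf0 hcoef S (by
    intro x hx
    obtain ⟨P, hP0, hP, rfl⟩ := hS x hx
    exact (odd_nsmul_eq_zero_iff hP0 j).1 hP)
  rw [hlc, Valuation.map_neg] at h
  push_cast
  exact h

/-- the `x`-coordinates of `t, 2t, …, nt`. -/
def lineX (t : W.Point) (n : ℕ) : Finset K := (Finset.Icc 1 n).image fun k => xc (k • t)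

lemma not_dvd_of_mem_Icc {k n : ℕ} (hn : n < p) (hk : k ∈ Finset.Icc 1 n) : ¬ p ∣ k := by
  rw [Finset.mem_Icc] at hk
  intro h
  have := Nat.le_of_dvd (by omega) h
  omega

lemma nsmul_ne_zero_of_not_dvd (hp : p.Prime) {t : W.Point} (ht : t ≠ 0) (hpt : p • t = 0) {k : ℕ}
    (hk : ¬ p ∣ k) : k • t ≠ 0 := by
  intro h
  have := (zsmul_eq_zero_iff_dvd hp ht hpt (k : ℤ)).1 (by rwa [natCast_zsmul])
  exact hk (by exact_mod_cast this)

lemma mem_lineX_torsion (hp : p.Prime) {t : W.Point} (ht : t ≠ 0) (hpt : p • t = 0) {n : ℕ}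
    (hn : n < p) {x : K} (hx : x ∈ lineX t n) :
    ∃ P : W.Point, P ≠ 0 ∧ p • P = 0 ∧ xc P = x := by
  obtain ⟨k, hk, rfl⟩ := Finset.mem_image.1 hx
  exact ⟨k • t, nsmul_ne_zero_of_not_dvd hp ht hpt (not_dvd_of_mem_Icc hn hk),
    by rw [smul_comm, hpt, smul_zero], rfl⟩

lemma val_of_mem_lineX (I : IntData A W) (D : PData A p) {t : W.Point} (ht : t ≠ 0)
    (hxt : 1 < A.valuation (xc t)) {n : ℕ} (hn : n < p) {x : K} (hx : x ∈ lineX t n) :
    A.valuation x = A.valuation (xc t) := by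
  obtain ⟨k, hk, rfl⟩ := Finset.mem_image.1 hx
  exact (val_xc_nsmul A.valuation ((A.valuation_le_one_iff _).2 I.b₂)
    ((A.valuation_le_one_iff _).2 I.b₄) ((A.valuation_le_one_iff _).2 I.b₆)
    ((A.valuation_le_one_iff _).2 I.b₈) ht hxt (D.val_natCast (not_dvd_of_mem_Icc hn hk))).2

lemma card_lineX_half (hp : p.Prime) {t : W.Point} (ht : t ≠ 0) (hpt : p • t = 0) {j : ℕ}
    (hj : p = 2 * j + 1) : (lineX t j).card = j := by
  rw [lineX, Finset.card_image_of_injOn, Nat.card_Icc, Nat.add_sub_cancel]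
  intro k hk k' hk' h
  have hk1 := Finset.mem_Icc.1 (Finset.mem_coe.1 hk)
  have hk1' := Finset.mem_Icc.1 (Finset.mem_coe.1 hk')
  have h0 : k • t ≠ 0 :=
    nsmul_ne_zero_of_not_dvd hp ht hpt (not_dvd_of_mem_Icc (n := j) (by omega) hk)
  have h0' : k' • t ≠ 0 :=
    nsmul_ne_zero_of_not_dvd hp ht hpt (not_dvd_of_mem_Icc (n := j) (by omega) hk')
  rcases (xc_eq_iff h0 h0').1 h with e | e
  · have e1 : ((k : ℤ) - k') • t = 0 := by
      rw [sub_smul, natCast_zsmul, natCast_zsmul, e, sub_self]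
    have e2 := (zsmul_eq_zero_iff_dvd hp ht hpt _).1 e1
    have e3 := Int.eq_zero_of_abs_lt_dvd e2 (by rw [abs_lt]; constructor <;> omega)
    omega
  · exfalso
    have e1 : ((k : ℤ) + k') • t = 0 := by
      rw [add_smul, natCast_zsmul, natCast_zsmul, e, neg_add_cancel]
    have e2 := (zsmul_eq_zero_iff_dvd hp ht hpt _).1 e1
    have e3 := Int.eq_zero_of_abs_lt_dvd e2 (by rw [abs_lt]; constructor <;> omega)
    omega

lemma prod_max_lineX (I : IntData A W) (D : PData A p) {t : W.Point} (ht : t ≠ 0)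
    (hxt : 1 < A.valuation (xc t)) {n : ℕ} (hn : n < p) :
    ∏ x ∈ lineX t n, max 1 (A.valuation x) = A.valuation (∏ x ∈ lineX t n, x) := by
  rw [map_prod]
  refine Finset.prod_congr rfl fun x hx => ?_
  rw [val_of_mem_lineX I D ht hxt hn hx]
  exact max_eq_right hxt.le

/-- **Torsion bound**: `v p * v (x u) ^ ((p - 1) / 2) ≤ 1`. -/
theorem torsion_bound (I : IntData A W) (D : PData A p) {u : W.Point} (hu : u ≠ 0)
    (hpu : p • u = 0) {j : ℕ} (hj : p = 2 * j + 1) :
    A.valuation (p : K) * A.valuation (xc u) ^ j ≤ 1 := by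
  rcases le_or_gt (A.valuation (xc u)) 1 with hx | hx
  · exact mul_le_one' D.hpA.le (pow_le_one' hx j)
  · have h := torsion_prod_bound I D (lineX u j)
      (fun x hx' => mem_lineX_torsion D.hp hu hpu (by omega) hx')
    have e : ∏ x ∈ lineX u j, max 1 (A.valuation x) = A.valuation (xc u) ^ j := by
      rw [Finset.prod_congr rfl (fun x hx' => by
        rw [val_of_mem_lineX I D hu hx (n := j) (by omega) hx', max_eq_right hx.le]),
        Finset.prod_const, card_lineX_half D.hp hu hpu hj]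
    rwa [e] at h

/-- if the line `⟨t⟩` already exhausts the bound, all other `p`-torsion points are integral. -/
theorem integral_of_not_mem_line (I : IntData A W) (D : PData A p) {t P : W.Point} (ht : t ≠ 0)
    (hpt : p • t = 0) (hxt : 1 < A.valuation (xc t)) (hP : P ≠ 0) (hpP : p • P = 0)
    (hPt : ∀ k : ℕ, P ≠ k • t)
    (hN : 1 ≤ A.valuation (p : K) * A.valuation (∏ x ∈ lineX t (p - 1), x)) :
    A.valuation (xc P) ≤ 1 := by
  have hp1 : p - 1 < p := Nat.sub_lt D.hp.pos one_pos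
  have hnot : xc P ∉ lineX t (p - 1) := by
    intro hmem
    obtain ⟨k, hk, hkx⟩ := Finset.mem_image.1 hmem
    have hk1 := Finset.mem_Icc.1 hk
    have h0 : k • t ≠ 0 := nsmul_ne_zero_of_not_dvd D.hp ht hpt (not_dvd_of_mem_Icc hp1 hk)
    rcases (xc_eq_iff h0 hP).1 hkx with e | e
    · exact hPt k e.symm
    · apply hPt (p - k)
      have e1 : (p - k) • t + k • t = 0 := by
        rw [← add_smul, Nat.sub_add_cancel (by omega), hpt]
      rw [e] at e1
      exact (add_neg_eq_zero.1 e1).symm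
  have h := torsion_prod_bound I D (insert (xc P) (lineX t (p - 1))) (by
    intro x hx
    rcases Finset.mem_insert.1 hx with rfl | hx
    · exact ⟨P, hP, hpP, rfl⟩
    · exact mem_lineX_torsion D.hp ht hpt hp1 hx)
  rw [Finset.prod_insert hnot, prod_max_lineX I D ht hxt hp1] at h
  have h1 : max 1 (A.valuation (xc P)) ≤ 1 := by
    calc max 1 (A.valuation (xc P)) = max 1 (A.valuation (xc P)) * 1 := (mul_one _).symm
      _ ≤ max 1 (A.valuation (xc P)) *
          (A.valuation (p : K) * A.valuation (∏ x ∈ lineX t (p - 1), x)) :=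
          mul_le_mul_right hN _
      _ = A.valuation (p : K) * (max 1 (A.valuation (xc P)) *
          A.valuation (∏ x ∈ lineX t (p - 1), x)) := mul_left_comm _ _ _
      _ ≤ 1 := h
  exact (le_max_right _ _).trans h1

end Fermat.Agent.HW.AtP
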