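import Fermat.Agent.HW.AtP.MulMain
import Fermat.Agent.S40.Defs
import Fermat.Prelude.Def_FLTPrelim_FreyPackage

/-!
# HW / AtP : the Frey curve at `p ∣ abc` (E-side of S44)

* `exists_mulData_frey` : the normal form `MulData` for the Frey curve at an odd prime `q ∣ abc`;
* `frey_main` : for `A | p`, `p ∣ abc`, `t ≠ 0` in `E[p]` with `ActsChi p A t`:  for all `x ∈ E[p]`
  `τ x - x ∈ ℕ t` (`τ ∈ I`) and `LittleRam p A x`.
-/

set_option autoImplicit false

namespace Fermat.Agent.HW.AtP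

open WeierstrassCurve WeierstrassCurve.Affine WeierstrassCurve.Affine.Point
open Fermat.Agent.S05 Fermat.Agent.HW Fermat.Agent.GAL
open scoped WeierstrassCurve.Affine

local notation "Qb" => AlgebraicClosure ℚ

theorem exists_mulData_frey {K : Type*} [Field K] (A : ValuationSubring K)
    {W : WeierstrassCurve.Affine K} {p q : ℕ} (hp0 : p ≠ 0) (hq : q.Prime) (hq2 : q ≠ 2)
    (hqA : A.valuation (q : K) < 1)
    (a b c : ℤ) (ha0 : a ≠ 0) (hb0 : b ≠ 0) (hc0 : c ≠ 0) (hchar : ∀ n : ℤ, n ≠ 0 → (n : K) ≠ 0)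
    (habc : a ^ p + b ^ p = c ^ p)
    (hab : ¬ ((q : ℤ) ∣ a ∧ (q : ℤ) ∣ b))
    (ha₁ : W.a₁ = 1) (ha₂ : W.a₂ = ((b : K) ^ p - 1 - (a : K) ^ p) / 4) (ha₃ : W.a₃ = 0)
    (ha₄ : W.a₄ = -((a : K) ^ p) * ((b : K) ^ p) / 16) (ha₆ : W.a₆ = 0)
    (hdvd : (q : ℤ) ∣ a * b * c) :
    ∃ (r c' b' : K) (e : ℤ), (r = 0 ∨ r = (a : K) ^ p / 4) ∧ MulData A W p r c' b' (e : K) := by
  have hqi : Prime (q : ℤ) := Nat.prime_iff_prime_int.1 hq
  have hpow2 : ∀ k : ℕ, A.valuation ((2 : K) ^ k) = 1 := by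
    intro k
    have := valuation_natCast_eq_one A hq hqA (n := 2) (by
      intro h; exact hq2 ((Nat.prime_dvd_prime_iff_eq hq Nat.prime_two).1 h))
    rw [map_pow]
    simp only [Nat.cast_ofNat] at this
    rw [this, one_pow]
  have h2 : A.valuation (2 : K) = 1 := by simpa using hpow2 1
  have h4 : A.valuation (4 : K) = 1 := by
    have := hpow2 2; norm_num at this; exact this
  have h8 : A.valuation (8 : K) = 1 := by
    have := hpow2 3; norm_num at this; exact this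
  have n8 : (8 : K) ≠ 0 := (A.valuation.ne_zero_iff).1 (by rw [h8]; exact one_ne_zero)
  have h16 : A.valuation (16 : K) = 1 := by
    have := hpow2 4; norm_num at this; exact this
  have n2 : (2 : K) ≠ 0 := (A.valuation.ne_zero_iff).1 (by rw [h2]; exact one_ne_zero)
  have n4 : (4 : K) ≠ 0 := (A.valuation.ne_zero_iff).1 (by rw [h4]; exact one_ne_zero)
  have n16 : (16 : K) ≠ 0 := (A.valuation.ne_zero_iff).1 (by rw [h16]; exact one_ne_zero)
  obtain ⟨α, hα⟩ : ∃ α : K, α = (a : K) ^ p := ⟨_, rfl⟩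
  obtain ⟨β, hβ⟩ : ∃ β : K, β = (b : K) ^ p := ⟨_, rfl⟩
  have hγ : α + β = (c : K) ^ p := by
    rw [hα, hβ]; exact_mod_cast congrArg (Int.cast : ℤ → K) habc
  rw [← hα, ← hβ] at ha₂ ha₄
  rw [← hα]
  have vα : A.valuation α = A.valuation (a : K) ^ p := by rw [hα, map_pow]
  have vβ : A.valuation β = A.valuation (b : K) ^ p := by rw [hβ, map_pow]
  have vγ : A.valuation (α + β) = A.valuation (c : K) ^ p := by rw [hγ, map_pow]
  have vα1 : A.valuation α ≤ 1 := by rw [vα]; exact pow_le_one' (valuation_intCast_le_one A a) p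
  have vβ1 : A.valuation β ≤ 1 := by rw [vβ]; exact pow_le_one' (valuation_intCast_le_one A b) p
  have I : IntData A W := by
    refine ⟨?_, ?_, ?_, ?_, ?_⟩
    · rw [ha₁]; exact A.one_mem
    · rw [ha₂, ← A.valuation_le_one_iff, map_div₀, h4, div_one]
      exact Valuation.map_sub_le _ (Valuation.map_sub_le _ vβ1 (by simp)) vα1
    · rw [ha₃]; exact A.zero_mem
    · rw [ha₄, ← A.valuation_le_one_iff, map_div₀, h16, div_one, map_mul, Valuation.map_neg]
      exact mul_le_one' vα1 vβ1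
    · rw [ha₆]; exact A.zero_mem
  have hb₂ : W.b₂ = β - α := by
    simp only [WeierstrassCurve.b₂, ha₁, ha₂]; field_simp; ring
  have hb₄ : W.b₄ = -α * β / 8 := by
    simp only [WeierstrassCurve.b₄, ha₁, ha₃, ha₄]; field_simp; ring
  have hb₆ : W.b₆ = 0 := by
    simp only [WeierstrassCurve.b₆, ha₃, ha₆]; ring
  have hac : ¬ ((q : ℤ) ∣ a ∧ (q : ℤ) ∣ c) := by
    rintro ⟨h1, h2⟩
    apply hab ⟨h1, ?_⟩
    have h3 : (q : ℤ) ∣ b ^ p := by
      have : b ^ p = c ^ p - a ^ p := by linarith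
      rw [this]
      exact dvd_sub (dvd_pow h2 hp0) (dvd_pow h1 hp0)
    exact hqi.dvd_of_dvd_pow h3
  have unit_of : ∀ n : ℤ, ¬ (q : ℤ) ∣ n → A.valuation (n : K) ^ p = 1 := by
    intro n hn; rw [valuation_intCast_eq_one A hq hqA hn, one_pow]
  have lt_of : ∀ n : ℤ, (q : ℤ) ∣ n → A.valuation (n : K) ^ p < 1 := by
    intro n hn
    exact pow_lt_one₀ zero_le (valuation_intCast_lt_one A hqA hn) hp0
  by_cases hqa : (q : ℤ) ∣ a
  · have hqb : ¬ (q : ℤ) ∣ b := fun h => hab ⟨hqa, h⟩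
    have H : ShiftData W 0 (-α * β / 16) (β - α) := by
      refine ⟨by rw [hb₆]; ring, by rw [hb₄]; field_simp; ring, by rw [hb₂]; ring, n2⟩
    refine ⟨0, _, _, a, Or.inl rfl, I, H, by simp, ?_, hchar a ha0, ?_, ?_⟩
    · rw [Valuation.map_sub_eq_of_lt_left, vβ, unit_of b hqb]
      rw [vα, vβ, unit_of b hqb]; exact lt_of a hqa
    · rw [map_div₀, h16, div_one, map_mul, Valuation.map_neg, vα, vβ, unit_of b hqb, mul_one]
    · rw [map_div₀, h16, div_one, map_mul, Valuation.map_neg, vα, vβ, unit_of b hqb, mul_one]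
      exact lt_of a hqa
  by_cases hqb : (q : ℤ) ∣ b
  · have H : ShiftData W 0 (-α * β / 16) (β - α) := by
      refine ⟨by rw [hb₆]; ring, by rw [hb₄]; field_simp; ring, by rw [hb₂]; ring, n2⟩
    refine ⟨0, _, _, b, Or.inl rfl, I, H, by simp, ?_, hchar b hb0, ?_, ?_⟩
    · rw [Valuation.map_sub_eq_of_lt_right, vα, unit_of a hqa]
      rw [vα, vβ, unit_of a hqa]; exact lt_of b hqb
    · rw [map_div₀, h16, div_one, map_mul, Valuation.map_neg, vα, vβ, unit_of a hqa, one_mul]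
    · rw [map_div₀, h16, div_one, map_mul, Valuation.map_neg, vα, vβ, unit_of a hqa, one_mul]
      exact lt_of b hqb
  have hqc : (q : ℤ) ∣ c := by
    rcases hqi.dvd_or_dvd hdvd with h | h
    · rcases hqi.dvd_or_dvd h with h | h
      · exact absurd h hqa
      · exact absurd h hqb
    · exact h
  have H : ShiftData W (α / 4) (α * (α + β) / 16) (α + (α + β)) := by
    refine ⟨by rw [hb₆, hb₂, hb₄]; field_simp; ring, by rw [hb₄, hb₂]; field_simp; ring,
      by rw [hb₂]; field_simp; ring, n2⟩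
  refine ⟨α / 4, _, _, c, Or.inr rfl, I, H, ?_, ?_, hchar c hc0, ?_, ?_⟩
  · rw [map_div₀, h4, div_one]; exact vα1
  · rw [Valuation.map_add_eq_of_lt_left, vα, unit_of a hqa]
    rw [vα, vγ, unit_of a hqa]; exact lt_of c hqc
  · rw [map_div₀, h16, div_one, map_mul, vα, vγ, unit_of a hqa, one_mul]
  · rw [map_div₀, h16, div_one, map_mul, vα, vγ, unit_of a hqa, one_mul]
    exact lt_of c hqc

/-- **E-side of S44.** -/
theorem frey_main (P : FreyPackage) (hdvd : (P.p : ℤ) ∣ P.a * P.b * P.c)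
    {A : ValuationSubring Qb} (hA : A.LiesOverPrime P.p) [NeZero P.p]
    {t : (P.freyCurve⁄Qb).Point} (ht : t ≠ 0) (hpt : P.p • t = 0) (hχ : S40.ActsChi P.p A t)
    (x : (P.freyCurve⁄Qb).Point) (hpx : P.p • x = 0) :
    (∀ τ ∈ A.inertiaSubgroupIn ℚ, ∃ k : ℕ, τ • x - x = k • t) ∧ S40.LittleRam P.p A x := by
  have hp := P.pp
  have hp2 : P.p ≠ 2 := by have := P.hp5; omega
  have : Fact P.p.Prime := ⟨hp⟩
  have hpA : A.valuation ((P.p : ℕ) : Qb) < 1 := hA
  have hab : ¬ ((P.p : ℤ) ∣ P.a ∧ (P.p : ℤ) ∣ P.b) := by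
    rintro ⟨h1, h2⟩
    have h3 : (P.p : ℤ) ∣ gcd P.a P.b := dvd_gcd h1 h2
    rw [P.hgcdab] at h3
    exact (Nat.prime_iff_prime_int.1 hp).not_isUnit (isUnit_of_dvd_one h3)
  obtain ⟨r, c', b', e, hr, M⟩ := exists_mulData_frey A (W := P.freyCurve⁄Qb) hp.ne_zero hp hp2 hpA
    P.a P.b P.c P.ha0 P.hb0 P.hc0 (fun n hn => by exact_mod_cast hn) P.hFLT hab
    (by simp [FreyPackage.freyCurve]) (by simp [FreyPackage.freyCurve])
    (by simp [FreyPackage.freyCurve]) (by simp [FreyPackage.freyCurve])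
    (by simp [FreyPackage.freyCurve]) hdvd
  have hr' : ∀ σ : Qb ≃ₐ[ℚ] Qb, σ r = r := by
    intro σ
    rcases hr with rfl | rfl
    · exact _root_.map_zero σ
    · rw [map_div₀, map_pow, map_intCast, map_ofNat]
  have he' : ∀ σ : Qb ≃ₐ[ℚ] Qb, σ (e : Qb) = e := fun σ => map_intCast σ e
  obtain ⟨ζ₀, hζ₀⟩ := HasEnoughRootsOfUnity.exists_primitiveRoot Qb P.p
  have hχ' : ∀ τ ∈ A.inertiaSubgroupIn ℚ, ∀ c : ℕ, τ ζ₀ = ζ₀ ^ c → τ • t = c • t := by
    intro τ hτ c hc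
    rw [hχ τ hτ, cycloChar_eq_of_primitiveRoot P.p τ hζ₀ hc, ZMod.val_natCast]
    exact (nsmul_eq_mod_nsmul hpt c).symm
  obtain ⟨-, hmain⟩ := mul_main hp hp2 hA M hr' he' hζ₀ ht hpt hχ'
  obtain ⟨h1, h2⟩ := hmain x hpx
  refine ⟨h1, ?_⟩
  intro σ hσ hσ1 hσx
  have hσζ : σ ζ₀ = ζ₀ := by
    have h := cycloChar_spec P.p σ hζ₀.pow_eq_one
    rw [hσ1, Units.val_one, ZMod.val_one, pow_one] at h
    exact h
  obtain ⟨b, hb, hfix, hval⟩ := h2 σ hσ hσζ hσx
  refine ⟨b, hb, fun τ _ hτ => hfix τ hτ, fun ζ hζ hζ1 => ?_⟩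
  have hζp : IsPrimitiveRoot ζ P.p := by
    have := orderOf_eq_prime hζ hζ1
    rw [← this]
    exact IsPrimitiveRoot.orderOf ζ
  have e1 := S36.valuation_one_sub_zeta_pow hp hA hζp
  have e2 := S36.valuation_one_sub_zeta_pow hp hA hζ₀
  have e3 : A.valuation (1 - ζ) = A.valuation (1 - ζ₀) := by
    have hp1 : P.p - 1 ≠ 0 := by have := hp.two_le; omega
    exact (pow_left_inj₀ zero_le zero_le hp1).1 (e1.trans e2.symm)
  rw [← Valuation.map_neg, neg_sub, e3, ← Valuation.map_neg, neg_sub]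
  exact hval

end Fermat.Agent.HW.AtP
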