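import Mathlib

/-!
# HW / AtP (E-side at `p`): Gauss norm bound

`f ∈ K[X]` with coefficients of valuation `≤ 1`, `S` a finite set of roots of `f`.  Then
`v (leadingCoeff f) * ∏_{x ∈ S} max 1 (v x) ≤ 1`.
-/

set_option autoImplicit false

namespace Fermat.Agent.HW.AtP

open Polynomial

variable {K : Type*} [Field K] {Γ₀ : Type*} [LinearOrderedCommGroupWithZero Γ₀]
  (v : Valuation K Γ₀)

lemma coeff_linear_mul_succ (x : K) (g : K[X]) (i : ℕ) :
    ((X - C x) * g).coeff (i + 1) = g.coeff i - x * g.coeff (i + 1) := by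
  rw [sub_mul, coeff_sub, coeff_X_mul, coeff_C_mul]

lemma coeff_linear_mul_zero (x : K) (g : K[X]) :
    ((X - C x) * g).coeff 0 = - (x * g.coeff 0) := by
  rw [sub_mul, coeff_sub, coeff_X_mul_zero, coeff_C_mul, zero_sub]

lemma coeff_bound_linear {x : K} {g : K[X]} {r : Γ₀}
    (h : ∀ i, v (((X - C x) * g).coeff i) ≤ r) (i : ℕ) : v (g.coeff i) * max 1 (v x) ≤ r := by
  rcases le_or_gt (v x) 1 with hx | hx
  · rw [max_eq_left hx, mul_one]
    have key : ∀ n i, g.natDegree < i + n → v (g.coeff i) ≤ r := by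
      intro n
      induction n with
      | zero =>
        intro i hi
        rw [coeff_eq_zero_of_natDegree_lt (by simpa using hi), map_zero]
        exact zero_le
      | succ n ih =>
        intro i hi
        have h1 := ih (i + 1) (by omega)
        have h2 := h (i + 1)
        rw [coeff_linear_mul_succ] at h2
        have e : g.coeff i = (g.coeff i - x * g.coeff (i + 1)) + x * g.coeff (i + 1) := by ring
        rw [e]
        refine v.map_add_le h2 ?_
        rw [map_mul]
        exact (mul_le_of_le_one_left' hx).trans h1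
    exact key (g.natDegree + 1) i (by omega)
  · rw [max_eq_right hx.le, mul_comm, ← map_mul]
    induction i with
    | zero =>
      have h2 := h 0
      rwa [coeff_linear_mul_zero, Valuation.map_neg] at h2
    | succ i ih =>
      have h2 := h (i + 1)
      rw [coeff_linear_mul_succ] at h2
      have e : x * g.coeff (i + 1) = g.coeff i - (g.coeff i - x * g.coeff (i + 1)) := by ring
      rw [e]
      refine v.map_sub_le ?_ h2
      refine le_trans ?_ ih
      rw [map_mul]
      exact le_mul_of_one_le_left' hx.le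

lemma prod_max_pos (S : Finset K) : 0 < ∏ x ∈ S, max 1 (v x) :=
  Finset.prod_pos fun _ _ => lt_of_lt_of_le zero_lt_one (le_max_left _ _)

theorem coeff_bound_prod [DecidableEq K] (S : Finset K) : ∀ (g : K[X]) (r : Γ₀),
    (∀ i, v ((g * ∏ x ∈ S, (X - C x)).coeff i) ≤ r) →
    ∀ i, v (g.coeff i) * ∏ x ∈ S, max 1 (v x) ≤ r := by
  induction S using Finset.induction_on with
  | empty =>
    intro g r h i
    simpa using h i
  | insert a S ha ih =>
    intro g r h i
    rw [Finset.prod_insert ha]
    have h1 : ∀ i, v ((((X - C a) * g) * ∏ x ∈ S, (X - C x)).coeff i) ≤ r := by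
      intro i
      have := h i
      rw [Finset.prod_insert ha] at this
      convert this using 3
      ring
    have h2 := ih _ r h1
    have hM := prod_max_pos v S
    have h3 : ∀ i, v (((X - C a) * g).coeff i) ≤ r * (∏ x ∈ S, max 1 (v x))⁻¹ := by
      intro i
      rw [le_mul_inv_iff₀ hM]
      exact h2 i
    have h4 := coeff_bound_linear v h3 i
    rw [le_mul_inv_iff₀ hM] at h4
    rwa [mul_assoc] at h4

/-- **Gauss bound.** -/
theorem leadingCoeff_bound [DecidableEq K] {f : K[X]} (hf0 : f ≠ 0) (hf : ∀ i, v (f.coeff i) ≤ 1)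
    (S : Finset K) (hS : ∀ x ∈ S, f.IsRoot x) :
    v f.leadingCoeff * ∏ x ∈ S, max 1 (v x) ≤ 1 := by
  have hle : S.val ≤ f.roots := by
    rw [Multiset.le_iff_subset S.nodup]
    intro x hx
    exact (mem_roots hf0).2 (hS x hx)
  obtain ⟨g, hg⟩ := (Multiset.prod_X_sub_C_dvd_iff_le_roots hf0 S.val).2 hle
  have hprod : (S.val.map fun a => X - C a).prod = ∏ x ∈ S, (X - C x) := rfl
  rw [hprod] at hg
  have hmonic : (∏ x ∈ S, (X - C x) : K[X]).Monic := monic_prod_of_monic _ _ fun x _ => monic_X_sub_C x
  have hlc : f.leadingCoeff = g.leadingCoeff := by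
    rw [hg, leadingCoeff_mul, hmonic.leadingCoeff, one_mul]
  rw [hlc]
  refine coeff_bound_prod v S g 1 ?_ g.natDegree
  intro i
  rw [mul_comm, ← hg]
  exact hf i

end Fermat.Agent.HW.AtP
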