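import Fermat.Agent.HW.AtP.Main
import Fermat.Agent.S40.Defs

/-!
# HW / AtP : `(E-ord')` in the language of `S40/Defs.lean`

Good reduction at `p`, `t ≠ 0` in `E[p]` with `ActsChi p A t` ⟹ `LittleRam p A P` for every `P ∈ E[p]`.
-/

set_option autoImplicit false

namespace Fermat.Agent.HW.AtP

open WeierstrassCurve WeierstrassCurve.Affine WeierstrassCurve.Affine.Point
open Fermat.Agent.S05 Fermat.Agent.HW Fermat.Agent.GAL
open scoped WeierstrassCurve.Affine

local notation "Qb" => AlgebraicClosure ℚ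

theorem littleRam_of_actsChi (W : WeierstrassCurve ℤ) {p : ℕ} [NeZero p] (hp : p.Prime)
    (hp2 : p ≠ 2) (hgood : W.IsGoodPrimeFor p) {A : ValuationSubring Qb} (hA : A.LiesOverPrime p)
    {t P : (EQb W).Point} (ht : t ≠ 0) (hpt : p • t = 0) (hpP : p • P = 0)
    (hχ : S40.ActsChi p A t) : S40.LittleRam p A P := by
  classical
  have : Fact p.Prime := ⟨hp⟩
  intro σ hσ hσ1 hσP
  obtain ⟨ζ₀, hζ₀⟩ := HasEnoughRootsOfUnity.exists_primitiveRoot Qb p
  have hχ' : ∀ τ ∈ A.inertiaSubgroupIn ℚ, ∀ c : ℕ, τ ζ₀ = ζ₀ ^ c → τ • t = c • t := by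
    intro τ hτ c hc
    rw [hχ τ hτ, cycloChar_eq_of_primitiveRoot p τ hζ₀ hc, ZMod.val_natCast]
    exact (nsmul_eq_mod_nsmul hpt c).symm
  have hσζ : σ ζ₀ = ζ₀ := by
    have h := cycloChar_spec p σ hζ₀.pow_eq_one
    rw [hσ1, Units.val_one, ZMod.val_one, pow_one] at h
    exact h
  obtain ⟨b, hb, hfix, hval⟩ :=
    exists_wild_witness W hp hp2 hgood hA hζ₀ ht hpt hpP hχ' hσ hσζ hσP
  refine ⟨b, hb, fun τ _ hτ => hfix τ hτ, fun ζ hζ hζ1 => ?_⟩
  have hζp : IsPrimitiveRoot ζ p := by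
    have := orderOf_eq_prime hζ hζ1
    rw [← this]
    exact IsPrimitiveRoot.orderOf ζ
  have e1 := S36.valuation_one_sub_zeta_pow hp hA hζp
  have e2 := S36.valuation_one_sub_zeta_pow hp hA hζ₀
  have e3 : A.valuation (1 - ζ) = A.valuation (1 - ζ₀) := by
    have hp1 : p - 1 ≠ 0 := by have := hp.two_le; omega
    exact (pow_left_inj₀ zero_le zero_le hp1).1 (e1.trans e2.symm)
  rw [← Valuation.map_neg, neg_sub, e3, ← Valuation.map_neg, neg_sub]
  exact hval

end Fermat.Agent.HW.AtP
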