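import Fermat.Agent.HW.AtP.Abs
import Fermat.Agent.HW.Pow.Unip
import Fermat.Agent.S36.Mod.Lz

/-!
# HW / AtP : the E-side at `p` (for S40)

`W` an integral Weierstrass curve with good reduction at the odd prime `p`, `A` a valuation ring of
`ℚbar` over `p`, `I` its inertia group, `ζ` a primitive `p`-th root of unity.

* `exists_inertia_zeta_ne` : some `τ ∈ I` moves `ζ`;
* `nonintegral_of_cyclo_eigen` : `t ≠ 0` in `E[p]` on which `I` acts through the cyclotomic
  character has non-integral `x`-coordinate;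
* `integral_of_stable_line` : if `t ∈ E[p]` is non-integral and `⟨t⟩` is `I`-stable, then every
  `p`-torsion point outside `⟨t⟩` is integral  (`(E-ss)`: `E[p]` is not contained in the kernel of
  reduction as soon as it contains an `I`-stable line);
* `exists_wild_witness` : `(E-ord')`.
-/

set_option autoImplicit false

namespace Fermat.Agent.HW.AtP

open WeierstrassCurve WeierstrassCurve.Affine WeierstrassCurve.Affine.Point
open Fermat.Agent.S05 Fermat.Agent.HW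
open scoped WeierstrassCurve.Affine

local notation "Qb" => AlgebraicClosure ℚ

variable {p : ℕ} {A : ValuationSubring Qb}

theorem pData (hp : p.Prime) (hp2 : p ≠ 2) (hA : A.LiesOverPrime p) : PData A p :=
  ⟨hp, hp2, hA, by exact_mod_cast hp.ne_zero⟩

lemma val_p_pos (hp : p.Prime) : 0 < A.valuation ((p : ℕ) : Qb) := by
  rw [Valuation.pos_iff]; exact_mod_cast hp.ne_zero

/-- `K₀ = ℚbar^I` is unramified: an `I`-fixed element of valuation `> 1` has valuation
`≥ v(p)⁻¹`. -/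
theorem one_le_val_p_mul_of_fixed (hp : p.Prime) (hA : A.LiesOverPrime p) {x : Qb}
    (hx : ∀ σ ∈ A.inertiaSubgroupIn ℚ, σ x = x) (hx1 : 1 < A.valuation x) :
    1 ≤ A.valuation ((p : ℕ) : Qb) * A.valuation x := by
  have hpA : A.valuation ((p : ℕ) : Qb) < 1 := hA
  have hpos := val_p_pos (A := A) hp
  have hx0 : x ≠ 0 := by
    rintro rfl
    simp at hx1
  obtain ⟨n, hn⟩ := S36.exists_zpow_of_inertia_fixed hp hA hx0 hx
  have hn0 : n < 0 := by
    by_contra h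
    have : A.valuation ((p : ℕ) : Qb) ^ n ≤ 1 := zpow_le_one₀ hpos hpA.le (not_lt.1 h)
    rw [← hn] at this
    exact absurd hx1 (not_lt.2 this)
  rw [hn, ← zpow_one_add₀ hpos.ne']
  exact one_le_zpow_of_nonpos₀ hpos hpA.le (by omega)

theorem exists_inertia_zeta_ne (hp : p.Prime) (hp2 : p ≠ 2) (hA : A.LiesOverPrime p) {ζ : Qb}
    (hζ : IsPrimitiveRoot ζ p) : ∃ τ ∈ A.inertiaSubgroupIn ℚ, τ ζ ≠ ζ := by
  by_contra hcon
  push Not at hcon
  have hpA : A.valuation ((p : ℕ) : Qb) < 1 := hA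
  have hpos := val_p_pos (A := A) hp
  have h1 : (1 - ζ) ≠ 0 := sub_ne_zero.2 (hζ.ne_one hp.one_lt).symm
  obtain ⟨n, hn⟩ := S36.exists_zpow_of_inertia_fixed hp hA h1
    (fun σ hσ => by rw [map_sub, map_one, hcon σ hσ])
  have h2 := S36.valuation_one_sub_zeta_pow hp hA hζ
  rw [hn, ← zpow_natCast, ← zpow_mul] at h2
  have h3 : n * ((p - 1 : ℕ) : ℤ) = 1 := by
    apply zpow_right_injective₀ hpos hpA.ne
    simpa using h2
  have h4 : ((p - 1 : ℕ) : ℤ) ∣ 1 := Dvd.intro_left _ h3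
  have h5 : (p - 1 : ℕ) ∣ 1 := by exact_mod_cast h4
  have h6 := Nat.dvd_one.1 h5
  have := hp.two_le
  omega

variable (W : WeierstrassCurve ℤ)

lemma smul_eq_map (σ : Qb ≃ₐ[ℚ] Qb) (P : (EQb W).Point) :
    σ • P = Point.map (W' := (W.map (Int.castRingHom ℚ)).toAffine) σ.toAlgHom P := rfl

lemma val_Δ_eq_one (hp : p.Prime) (hA : A.LiesOverPrime p) (hgood : W.IsGoodPrimeFor p) :
    A.valuation (EQb W).Δ = 1 := by
  rw [Δ_EQb]
  exact valuation_intCast_eq_one A hp hA hgood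

theorem nonintegral_of_cyclo_eigen (hp : p.Prime) (hp2 : p ≠ 2) (hgood : W.IsGoodPrimeFor p)
    (hA : A.LiesOverPrime p) {ζ : Qb} (hζ : IsPrimitiveRoot ζ p)
    {t : (EQb W).Point} (ht : t ≠ 0) (hpt : p • t = 0)
    (hχ : ∀ τ ∈ A.inertiaSubgroupIn ℚ, ∀ c : ℕ, τ ζ = ζ ^ c → τ • t = c • t) :
    1 < A.valuation (xc t) := by
  classical
  have : NeZero p := ⟨hp.ne_zero⟩
  obtain ⟨τ, hτ, hτζ⟩ := exists_inertia_zeta_ne hp hp2 hA hζ
  have hpow : (τ ζ) ^ p = 1 := by rw [← map_pow, hζ.pow_eq_one, map_one]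
  obtain ⟨c, -, hc⟩ := hζ.eq_pow_of_pow_eq_one hpow
  have hc1 : ¬ (p : ℤ) ∣ (c : ℤ) - 1 := by
    intro hd
    apply hτζ
    rw [← hc]
    have hc0 : 1 ≤ c := by
      rcases Nat.eq_zero_or_pos c with rfl | h
      · exfalso
        have h1 : (p : ℤ) ∣ 1 := by simpa using hd
        have h2 : p ∣ 1 := by exact_mod_cast h1
        have := hp.two_le
        have := Nat.dvd_one.1 h2
        omega
      · exact h
    obtain ⟨m, hm⟩ : p ∣ c - 1 := by
      have : ((c - 1 : ℕ) : ℤ) = (c : ℤ) - 1 := by omega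
      rw [← this] at hd
      exact_mod_cast hd
    have hc' : c = 1 + p * m := by omega
    rw [hc', pow_add, pow_mul, hζ.pow_eq_one, one_pow, pow_one, mul_one]
  exact nonintegral_of_eigen (intData_EQb W A) (pData hp hp2 hA) (galData_EQb W A hτ)
    (val_Δ_eq_one W hp hA hgood) ht hpt hc1 (hχ τ hτ c hc.symm)

theorem integral_of_stable_line (hp : p.Prime) (hp2 : p ≠ 2) (hA : A.LiesOverPrime p)
    {t P : (EQb W).Point} (ht : t ≠ 0) (hpt : p • t = 0) (hxt : 1 < A.valuation (xc t))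
    (hstab : ∀ τ ∈ A.inertiaSubgroupIn ℚ, ∃ c : ℕ, τ • t = c • t)
    (hP : P ≠ 0) (hpP : p • P = 0) (hPt : ∀ k : ℕ, P ≠ k • t) :
    A.valuation (xc P) ≤ 1 := by
  classical
  have D := pData hp hp2 hA
  refine integral_of_not_mem_line (intData_EQb W A) D ht hpt hxt hP hpP hPt ?_
  refine one_le_val_p_mul_of_fixed hp hA ?_ (one_lt_val_prod_lineX (intData_EQb W A) D ht hxt)
  intro τ hτ
  obtain ⟨c, hc⟩ := hstab τ hτ
  exact prod_lineX_fixed hp (galData_EQb W A hτ).hs ht hpt hc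

/-- **(E-ord')**.  Good reduction at `p`; `t ≠ 0` in `E[p]` with `I` acting through the cyclotomic
character; `σ ∈ I` fixes `ζ_p` and moves `P ∈ E[p]`.  Then a coordinate `b` of `P` is integral and
`σ b - b ∉ (ζ - 1) 𝔪_A`. -/
theorem exists_wild_witness (hp : p.Prime) (hp2 : p ≠ 2) (hgood : W.IsGoodPrimeFor p)
    (hA : A.LiesOverPrime p) {ζ : Qb} (hζ : IsPrimitiveRoot ζ p)
    {t P : (EQb W).Point} (ht : t ≠ 0) (hpt : p • t = 0) (hpP : p • P = 0)
    (hχ : ∀ τ ∈ A.inertiaSubgroupIn ℚ, ∀ c : ℕ, τ ζ = ζ ^ c → τ • t = c • t)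
    {σ : Qb ≃ₐ[ℚ] Qb} (hσ : σ ∈ A.inertiaSubgroupIn ℚ) (hσζ : σ ζ = ζ) (hσP : σ • P ≠ P) :
    ∃ b : Qb, b ∈ A ∧ (∀ τ : Qb ≃ₐ[ℚ] Qb, τ • P = P → τ b = b) ∧
      A.valuation (ζ - 1) ≤ A.valuation (σ b - b) := by
  classical
  have : NeZero p := ⟨hp.ne_zero⟩
  have D := pData hp hp2 hA
  have I := intData_EQb W A
  have hxt := nonintegral_of_cyclo_eigen W hp hp2 hgood hA hζ ht hpt hχ
  have hP : P ≠ 0 := by
    rintro rfl
    exact hσP (smul_eq_map W σ 0 ▸ _root_.map_zero _)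
  have hσt : σ • t = t := by
    have := hχ σ hσ 1 (by rw [hσζ, pow_one])
    rwa [one_smul] at this
  have hPt : ∀ k : ℕ, P ≠ k • t := by
    rintro k rfl
    apply hσP
    rw [smul_eq_map, map_nsmul, ← smul_eq_map, hσt]
  have hstab : ∀ τ ∈ A.inertiaSubgroupIn ℚ, ∃ c : ℕ, τ • t = c • t := by
    intro τ hτ
    have hpow : (τ ζ) ^ p = 1 := by rw [← map_pow, hζ.pow_eq_one, map_one]
    obtain ⟨c, -, hc⟩ := hζ.eq_pow_of_pow_eq_one hpow
    exact ⟨c, hχ τ hτ c hc.symm⟩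
  have hxP := integral_of_stable_line W hp hp2 hA ht hpt hxt hstab hP hpP hPt
  have hyP : A.valuation (yc P) ≤ 1 := y_integral A I.h₁ I.h₂ I.h₃ I.h₄ I.h₆ hP hxP
  have hlam : A.valuation (ζ - 1) ^ (p - 1) = A.valuation ((p : ℕ) : Qb) := by
    rw [← S36.valuation_one_sub_zeta_pow hp hA hζ, ← Valuation.map_neg, neg_sub]
  have hfix : ∀ τ : Qb ≃ₐ[ℚ] Qb, τ • P = P → τ (xc P) = xc P ∧ τ (yc P) = yc P := by
    intro τ hτ
    cases P with
    | zero => exact absurd rfl hP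
    | some x y h =>
      have h1 : Point.map (W' := (W.map (Int.castRingHom ℚ)).toAffine) τ.toAlgHom
          (Point.some x y h) = Point.some x y h := hτ
      rw [Point.map_some] at h1
      have h2 := Point.some.inj h1
      exact ⟨h2.1, h2.2⟩
  rcases exists_coord_far I D (galData_EQb W A hσ) (val_Δ_eq_one W hp hA hgood) hP hpP hxP hσP
    hlam with h | h
  · exact ⟨xc P, (A.valuation_le_one_iff _).1 hxP, fun τ hτ => (hfix τ hτ).1, h⟩
  · exact ⟨yc P, (A.valuation_le_one_iff _).1 hyP, fun τ hτ => (hfix τ hτ).2, h⟩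

end Fermat.Agent.HW.AtP
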