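import Fermat.Agent.HW.AtP.Abs
import Fermat.Agent.HW.AtP.MulDist
import Fermat.Agent.S05.Main
import Fermat.Agent.S05.Node
import Fermat.Agent.S05.MultVal

/-!
# HW / AtP : multiplicative reduction at `p`, `p ∣ v(Δ)` (abstract part)

`W` integral with a `2`-torsion point `x0` reducing to the node (`S05.ShiftData`), `v c = v e0 ^ p`.

* `exists_good_multiple` : a `p`-torsion point `P ≠ 0` all of whose multiples are integral has a multiple `w = j P` which
  either has nonsingular reduction or satisfies `v (x_w - x0) = v (e0 ^ 2)`, `v c < v (x_w - x0) < 1`  (`IsGood`);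
* `IsGood.sub` : `s w - w` is `0` or non-integral;
* `IsGood.far` : if `s w ≠ w`, one of `x_w`, `y_w`, `(x_w - x0) / e0 ^ 2` is moved by at least `λ`;
* `nonintegral_of_eigen_mul` : `s t = c t`, `c ≢ 1` ⟹ `x_t` is not integral.
-/

set_option autoImplicit false

namespace Fermat.Agent.HW.AtP

open WeierstrassCurve WeierstrassCurve.Affine WeierstrassCurve.Affine.Point
open Fermat.Agent.S05 Fermat.Agent.S13

variable {K : Type*} [Field K] [DecidableEq K] {A : ValuationSubring K}
  {W : WeierstrassCurve.Affine K} {p : ℕ} {x0 c b' e0 : K}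

/-- multiplicative reduction with `p ∣ v(Δ)`, in the normal form of `S05`. -/
structure MulData (A : ValuationSubring K) (W : WeierstrassCurve.Affine K) (p : ℕ)
    (x0 c b' e0 : K) : Prop where
  I : IntData A W
  H : ShiftData W x0 c b'
  hx0 : A.valuation x0 ≤ 1
  hb' : A.valuation b' = 1
  he0 : e0 ≠ 0
  hcv : A.valuation c = A.valuation e0 ^ p
  hc1 : A.valuation c < 1

/-- `σ` fixes the constants. -/
structure FixData (σ : K →+* K) (W : WeierstrassCurve.Affine K) (x0 e0 : K) : Prop where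
  h₁ : σ W.a₁ = W.a₁
  h₃ : σ W.a₃ = W.a₃
  hx0 : σ x0 = x0
  he0 : σ e0 = e0

omit [DecidableEq K] in
lemma PData.val_two (D : PData A p) : A.valuation (2 : K) = 1 := by
  have := D.val_natCast (k := 2) (by
    intro h; exact D.hp2 ((Nat.prime_dvd_prime_iff_eq D.hp Nat.prime_two).1 h))
  simpa using this

/-- a good representative of a line of `E[p]`. -/
def IsGood (A : ValuationSubring K) (W : WeierstrassCurve.Affine K) (x0 c e0 : K) (w : W.Point) :
    Prop :=
  A.valuation (xc w - x0) = 1 ∨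
    (A.valuation (xc w - x0) = A.valuation (e0 ^ 2) ∧ A.valuation (xc w - x0) < 1 ∧
      A.valuation c < A.valuation (xc w - x0))

theorem exists_good_multiple (M : MulData A W p x0 c b' e0) (D : PData A p) {P : W.Point}
    (hP : P ≠ 0) (hpP : p • P = 0)
    (hint : ∀ j : ℤ, ¬ (p : ℤ) ∣ j → A.valuation (xc (j • P)) ≤ 1) :
    ∃ j : ℤ, ¬ (p : ℤ) ∣ j ∧ IsGood A W x0 c e0 (j • P) := by
  have hp := D.hp
  have H := M.H
  have hb' := M.hb'
  have hcv := M.hcv
  have hc1 := M.hc1
  have he0 := M.he0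
  have hp3 : 3 ≤ p := by
    have := hp.two_le; have := D.hp2; omega
  have h2 : A.valuation (2 : K) = 1 := D.val_two
  have hz := zsmul_eq_zero_iff_dvd hp hP hpP
  have hpj : ∀ j : ℤ, p • (j • P) = 0 := fun j => by rw [smul_comm, hpP, smul_zero]
  by_cases hex : ∃ j : ℤ, ¬ (p : ℤ) ∣ j ∧ A.valuation (xc (j • P) - x0) = 1
  · obtain ⟨j, hj, hX⟩ := hex
    exact ⟨j, hj, Or.inl hX⟩
  · have hlt : ∀ j : ℤ, ¬ (p : ℤ) ∣ j → A.valuation (xc (j • P) - x0) < 1 := by
      intro j hj
      refine lt_of_le_of_ne (Valuation.map_sub_le _ (hint j hj) M.hx0) ?_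
      intro h
      exact hex ⟨j, hj, h⟩
    obtain ⟨j0, hj0, hmax⟩ := Finset.exists_max_image (Finset.Icc 1 (p - 1))
      (fun j : ℕ => A.valuation (xc (j • P) - x0)) ⟨1, by simp; omega⟩
    rw [Finset.mem_Icc] at hj0
    have hj0nd : ¬ (p : ℤ) ∣ (j0 : ℤ) := by
      intro h
      have := Nat.le_of_dvd (by omega) (Int.natCast_dvd_natCast.1 h)
      omega
    refine ⟨(j0 : ℤ), hj0nd, Or.inr ?_⟩
    obtain ⟨P', hP'⟩ : ∃ P', P' = (j0 : ℤ) • P := ⟨_, rfl⟩
    rw [← hP']
    have hP'0 : P' ≠ 0 := by rw [hP']; exact fun h => hj0nd ((hz _).1 h)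
    have hpP' : p • P' = 0 := by rw [hP']; exact hpj _
    have hz' := zsmul_eq_zero_iff_dvd hp hP'0 hpP'
    have hpi : Prime (p : ℤ) := Nat.prime_iff_prime_int.1 hp
    have hmulnd : ∀ j : ℤ, ¬ (p : ℤ) ∣ j → ¬ (p : ℤ) ∣ j * j0 := by
      intro j hj h
      rcases hpi.dvd_or_dvd h with h | h
      · exact hj h
      · exact hj0nd h
    have h2nd : ∀ j : ℤ, ¬ (p : ℤ) ∣ j → ¬ (p : ℤ) ∣ 2 * j := by
      intro j hj h
      rcases hpi.dvd_or_dvd h with h | h
      · have := Int.le_of_dvd (by norm_num) h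
        omega
      · exact hj h
    have hsm : ∀ j : ℤ, j • P' = (j * j0) • P := fun j => by rw [hP', mul_smul]
    have hne0 : ∀ j : ℤ, ¬ (p : ℤ) ∣ j → j • P' ≠ 0 := fun j hj h => hj ((hz' j).1 h)
    have heta : ∀ j : ℤ, ¬ (p : ℤ) ∣ j →
        2 * yc (j • P') + W.a₁ * xc (j • P') + W.a₃ ≠ 0 := by
      intro j hj h
      have h1 := (add_self_eq_zero_iff (hne0 j hj)).2 h
      rw [← two_zsmul, smul_smul] at h1
      exact h2nd j hj ((hz' _).1 h1)
    have hprod : ∀ j : ℤ, ¬ (p : ℤ) ∣ j →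
        (xc (j • P') - x0) * (4 * (xc (j • P') - x0) ^ 2 + b' * (xc (j • P') - x0) + 4 * c) ≠ 0 := by
      intro j hj
      rw [← H.eta_sq (hne0 j hj)]
      exact pow_ne_zero 2 (heta j hj)
    have hc0 : c ≠ 0 := by
      intro h
      rw [h, _root_.map_zero] at hcv
      exact (pow_ne_zero p ((A.valuation.ne_zero_iff).2 he0)) hcv.symm
    have hxne : ∀ i j : ℤ, ¬ (p : ℤ) ∣ i → ¬ (p : ℤ) ∣ j → ¬ (p : ℤ) ∣ i + j → ¬ (p : ℤ) ∣ i - j →
        xc (i • P') ≠ xc (j • P') := by
      intro i j hi hj hij hij'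
      apply xc_ne_of_add_sub_ne_zero (hne0 i hi) (hne0 j hj)
      · rw [← add_smul]; exact hne0 _ hij
      · rw [← sub_smul]; exact hne0 _ hij'
    have key := mult_val A.valuation p hp D.hp2 (fun j => xc (j • P') - x0) c b' hc0 hb' h2
      (fun j hj => left_ne_zero_of_mul (hprod j hj))
      (fun j hj => by
        rw [hsm]; exact hlt _ (hmulnd j hj))
      (fun i j hij => by
        have : i • P' = -(j • P') := by
          rw [eq_neg_iff_add_eq_zero, ← add_smul]; exact (hz' _).2 hij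
        rw [this, xc_neg])
      (fun j hj => by
        obtain ⟨m, hm1, hm2, hm⟩ := exists_nat_rep hp hpP (j * j0) (hmulnd j hj)
        rw [hsm, hm, one_smul, hP', natCast_zsmul]
        exact hmax m (by rw [Finset.mem_Icc]; exact ⟨hm1, hm2⟩))
      (fun i j hi hj hij hij' h => hxne i j hi hj hij hij' (by simpa using h))
      (fun i j hi hj hij hij' => by
        rw [add_smul, sub_smul]
        exact H.prod (hne0 i hi) (hne0 j hj) (hxne i j hi hj hij hij'))
      (fun j hj => right_ne_zero_of_mul (hprod j hj))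
      (fun j hj => by
        have h1 : (2 * j) • P' = j • P' + j • P' := by rw [two_mul, add_smul]
        rw [h1]
        refine H.dbl (hne0 j hj) ?_
        rw [← h1]; exact hne0 _ (h2nd j hj))
    simp only [one_smul] at key
    have hXe : A.valuation (xc P' - x0) = A.valuation (e0 ^ 2) := by
      have h1 : A.valuation (xc P' - x0) ^ p = (A.valuation (e0 ^ 2)) ^ p := by
        rw [key, hcv, map_pow, ← pow_mul, ← pow_mul, mul_comm]
      exact (pow_left_inj₀ zero_le zero_le (by omega)).1 h1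
    have hXlt : A.valuation (xc P' - x0) < 1 := by
      have := hlt j0 hj0nd
      rwa [← hP'] at this
    have hcX : A.valuation c < A.valuation (xc P' - x0) := by
      by_contra hle
      rw [not_lt] at hle
      have h1 : A.valuation (xc P' - x0) ^ p ≤ A.valuation c ^ p := pow_le_pow_left₀ zero_le hle p
      have h2' : A.valuation c ^ p < A.valuation c ^ 2 :=
        pow_lt_pow_right_of_lt_one₀ (zero_lt_iff.2 ((A.valuation.ne_zero_iff).2 hc0)) hc1 (by omega)
      rw [key] at h1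
      exact absurd h1 (not_le.2 h2')
    exact ⟨hXe, hXlt, hcX⟩

variable {σ : K →+* K} {s : W.Point →+ W.Point}

omit [DecidableEq K] in
/-- a good point is integral. -/
lemma IsGood.val_x (M : MulData A W p x0 c b' e0) {w : W.Point} (hg : IsGood A W x0 c e0 w) :
    A.valuation (xc w) ≤ 1 := by
  have h : A.valuation (xc w - x0) ≤ 1 := by
    rcases hg with h | ⟨-, h, -⟩
    · exact h.le
    · exact h.le
  have e : xc w = (xc w - x0) + x0 := by ring
  rw [e]
  exact Valuation.map_add_le _ h M.hx0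

omit [DecidableEq K] in
lemma hns_of_typeZero (M : MulData A W p x0 c b' e0) (D : PData A p) {w : W.Point} (hw : w ≠ 0)
    (hx : A.valuation (xc w) ≤ 1) (hX : A.valuation (xc w - x0) = 1) :
    A.valuation (W.a₁ * yc w - (3 * xc w ^ 2 + 2 * W.a₂ * xc w + W.a₄)) = 1 ∨
      A.valuation (2 * yc w + W.a₁ * xc w + W.a₃) = 1 :=
  nonsingular_of_not_node A.valuation M.H ((A.valuation_le_one_iff _).2 M.I.h₁)
    ((A.valuation_le_one_iff _).2 M.I.h₂) ((A.valuation_le_one_iff _).2 M.I.h₃)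
    ((A.valuation_le_one_iff _).2 M.I.h₄) D.val_two M.hb' M.hc1 hw hx
    (y_integral A M.I.h₁ M.I.h₂ M.I.h₃ M.I.h₄ M.I.h₆ hw hx) hX

/-- `s w - w` is `0` or non-integral. -/
theorem IsGood.sub (M : MulData A W p x0 c b' e0) (D : PData A p) (G : GalData A W σ s)
    (F : FixData σ W x0 e0) {w : W.Point} (hw : w ≠ 0) (hg : IsGood A W x0 c e0 w) :
    s w = w ∨ 1 < A.valuation (xc (s w - w)) := by
  have hx := hg.val_x M
  have hy := y_integral A M.I.h₁ M.I.h₂ M.I.h₃ M.I.h₄ M.I.h₆ hw hx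
  obtain ⟨hs0, hsx, hsy⟩ := G.hs w hw
  rcases hg with hX | ⟨hXe, hXlt, hcX⟩
  · have key := sub_eq_zero_or_nonintegral A.valuation
      ((A.valuation_le_one_iff _).2 M.I.h₁) ((A.valuation_le_one_iff _).2 M.I.h₂)
      ((A.valuation_le_one_iff _).2 M.I.h₃) ((A.valuation_le_one_iff _).2 M.I.h₄)
      hs0 hw (by rw [hsx]; exact G.val_le hx) (by rw [hsy]; exact G.val_le hy) hx hy
      (by rw [hsx]; exact G.hσ _ hx) (by rw [hsy]; exact G.hσ _ hy) (hns_of_typeZero M D hw hx hX)
    rcases key with h | h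
    · exact Or.inl (sub_eq_zero.1 h)
    · exact Or.inr h
  · by_cases hne : s w = w
    · exact Or.inl hne
    · right
      obtain ⟨h1, h2⟩ := val_xc_sub_of_val_eq A.valuation M.H σ s G.hs G.hσ
        ((A.valuation_le_one_iff _).2 M.I.h₁) ((A.valuation_le_one_iff _).2 M.I.h₂) F.h₁ F.h₃
        F.hx0 M.hx0 D.val_two M.hb' (pow_ne_zero 2 M.he0) (by rw [map_pow, F.he0]) hw hXe hXlt hcX
        hne
      by_contra hcon
      have h3 : A.valuation (xc (s w - w)) * A.valuation (xc (s w) - xc w) ^ 2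
          ≤ A.valuation (xc (s w) - xc w) ^ 2 := mul_le_of_le_one_left' (not_lt.1 hcon)
      rw [h2] at h3
      have h4 : A.valuation (xc (s w) - xc w) ^ 2 < A.valuation (xc w - x0) ^ 2 :=
        pow_lt_pow_left₀ h1 zero_le (by norm_num)
      exact absurd h3 (not_le.2 h4)

/-- the three candidates for the witness `b`. -/
theorem IsGood.far (M : MulData A W p x0 c b' e0) (D : PData A p) (G : GalData A W σ s)
    (F : FixData σ W x0 e0) {w : W.Point} (hw : w ≠ 0) (hpw : p • w = 0)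
    (hg : IsGood A W x0 c e0 w) (hne : s w ≠ w) {lam : K}
    (hlam : A.valuation lam ^ (p - 1) = A.valuation (p : K)) :
    A.valuation lam ≤ A.valuation (σ (xc w) - xc w) ∨
      A.valuation lam ≤ A.valuation (σ (yc w) - yc w) ∨
      (A.valuation ((xc w - x0) / e0 ^ 2) = 1 ∧
        A.valuation lam ≤ A.valuation (σ ((xc w - x0) / e0 ^ 2) - (xc w - x0) / e0 ^ 2)) := by
  have hx := hg.val_x M
  obtain ⟨hs0, hsx, hsy⟩ := G.hs w hw
  rcases hg with hX | ⟨hXe, hXlt, hcX⟩
  · rcases exists_coord_far_of_hns M.I D G hw hpw hx (hns_of_typeZero M D hw hx hX) hne hlam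
      with h | h
    · exact Or.inl h
    · exact Or.inr (Or.inl h)
  · right; right
    obtain ⟨j, hj1, hj⟩ := D.exists_half
    have he : e0 ^ 2 ≠ 0 := pow_ne_zero 2 M.he0
    have hve : 0 < A.valuation (e0 ^ 2) := zero_lt_iff.2 ((A.valuation.ne_zero_iff).2 he)
    obtain ⟨h1, h2⟩ := val_xc_sub_of_val_eq A.valuation M.H σ s G.hs G.hσ
      ((A.valuation_le_one_iff _).2 M.I.h₁) ((A.valuation_le_one_iff _).2 M.I.h₂) F.h₁ F.h₃
      F.hx0 M.hx0 D.val_two M.hb' he (by rw [map_pow, F.he0]) hw hXe hXlt hcX hne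
    have hu0 : s w - w ≠ 0 := sub_ne_zero.2 hne
    have hpu : p • (s w - w) = 0 := by
      rw [smul_sub, ← map_nsmul, hpw, _root_.map_zero, sub_zero]
    have hb := torsion_bound M.I D hu0 hpu hj
    have e : A.valuation (p : K) * A.valuation (xc (s w - w)) ^ j
        = (A.valuation lam ^ 2 * A.valuation (xc (s w - w))) ^ j := by
      rw [← hlam, mul_pow, ← pow_mul]
      congr 2
      omega
    rw [e] at hb
    have hb1 : A.valuation lam ^ 2 * A.valuation (xc (s w - w)) ≤ 1 :=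
      (pow_le_one_iff_of_nonneg zero_le (by omega)).1 hb
    have hb2 : (A.valuation lam * A.valuation (xc w - x0)) ^ 2
        ≤ A.valuation (xc (s w) - xc w) ^ 2 := by
      rw [mul_pow, ← h2, ← mul_assoc]
      exact mul_le_of_le_one_left' hb1
    have hb3 : A.valuation lam * A.valuation (xc w - x0) ≤ A.valuation (xc (s w) - xc w) :=
      (pow_le_pow_iff_left₀ zero_le zero_le (by norm_num)).1 hb2
    refine ⟨by rw [map_div₀, hXe, div_self hve.ne'], ?_⟩
    have e2 : σ ((xc w - x0) / e0 ^ 2) - (xc w - x0) / e0 ^ 2 = (xc (s w) - xc w) / e0 ^ 2 := by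
      rw [map_div₀, map_sub, map_pow, F.hx0, F.he0, hsx]
      ring
    rw [e2, map_div₀, le_div_iff₀ hve, ← hXe]
    exact hb3

/-- all multiples of an integral `p`-torsion point are integral. -/
lemma integral_multiples (I : IntData A W) (D : PData A p) {t : W.Point} (ht : t ≠ 0)
    (hpt : p • t = 0) (hx : A.valuation (xc t) ≤ 1) (j : ℤ) (hj : ¬ (p : ℤ) ∣ j) :
    A.valuation (xc (j • t)) ≤ 1 := by
  by_contra hcon
  have hcon' : 1 < A.valuation (xc (j • t)) := not_le.1 hcon
  have hz := zsmul_eq_zero_iff_dvd D.hp ht hpt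
  have hj0 : j • t ≠ 0 := fun h => hj ((hz j).1 h)
  have hpj : p • (j • t) = 0 := by rw [smul_comm, hpt, smul_zero]
  have hcop : IsCoprime (p : ℤ) j :=
    (Prime.coprime_iff_not_dvd (Nat.prime_iff_prime_int.1 D.hp)).2 hj
  obtain ⟨a, b, hab⟩ := hcop
  have hb : ¬ (p : ℤ) ∣ b := by
    intro hdvd
    have h1 : (p : ℤ) ∣ a * p + b * j := dvd_add (Dvd.intro_left _ rfl) (Dvd.dvd.mul_right hdvd _)
    rw [hab] at h1
    exact (Nat.prime_iff_prime_int.1 D.hp).not_dvd_one h1
  have htw : b • (j • t) = t := by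
    rw [← mul_smul]
    have : b * j = 1 - a * p := by linear_combination hab
    rw [this, sub_smul, one_smul, mul_smul, natCast_zsmul, hpt, smul_zero, sub_zero]
  obtain ⟨m, hm1, hm2, hm⟩ := exists_nat_rep D.hp hpj b hb
  have hpm : ¬ p ∣ m := by
    intro hd
    have := Nat.le_of_dvd (by omega) hd
    have := D.hp.pos
    omega
  have h2 := (val_xc_nsmul A.valuation ((A.valuation_le_one_iff _).2 I.b₂)
    ((A.valuation_le_one_iff _).2 I.b₄) ((A.valuation_le_one_iff _).2 I.b₆)
    ((A.valuation_le_one_iff _).2 I.b₈) hj0 hcon' (D.val_natCast hpm)).2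
  rw [← hm, htw] at h2
  rw [h2] at hx
  exact absurd hx hcon

/-- `s t = c t`, `c ≢ 1 mod p` ⟹ `x(t)` is not integral (multiplicative reduction). -/
theorem nonintegral_of_eigen_mul (M : MulData A W p x0 c b' e0) (D : PData A p)
    (G : GalData A W σ s) (F : FixData σ W x0 e0) {t : W.Point} (ht : t ≠ 0) (hpt : p • t = 0)
    {a : ℕ} (ha : ¬ (p : ℤ) ∣ (a : ℤ) - 1) (hst : s t = a • t) : 1 < A.valuation (xc t) := by
  by_contra hcon
  have hx : A.valuation (xc t) ≤ 1 := not_lt.1 hcon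
  have hint := integral_multiples M.I D ht hpt hx
  have hz := zsmul_eq_zero_iff_dvd D.hp ht hpt
  obtain ⟨j, hj, hg⟩ := exists_good_multiple M D ht hpt hint
  have hw0 : j • t ≠ 0 := fun h => hj ((hz j).1 h)
  have hpw : p • (j • t) = 0 := by rw [smul_comm, hpt, smul_zero]
  have hsw : s (j • t) = a • (j • t) := by rw [map_zsmul, hst, smul_comm]
  have hdiff : s (j • t) - j • t = (((a : ℤ) - 1) * j) • t := by
    rw [hsw, mul_smul, sub_smul, natCast_zsmul, one_smul]
  have hnd : ¬ (p : ℤ) ∣ ((a : ℤ) - 1) * j := by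
    intro h
    rcases (Nat.prime_iff_prime_int.1 D.hp).dvd_or_dvd h with h | h
    · exact ha h
    · exact hj h
  rcases hg.sub M D G F hw0 with h | h
  · have h1 : s (j • t) - j • t = 0 := sub_eq_zero.2 h
    rw [hdiff] at h1
    exact hnd ((hz _).1 h1)
  · rw [hdiff] at h
    exact absurd (hint _ hnd) (not_le.2 h)

end Fermat.Agent.HW.AtP
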