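import Fermat.Agent.HW.AtP.MulAbs
import Fermat.Agent.HW.AtP.Main

/-!
# HW / AtP : the E-side at a prime `p` of multiplicative reduction with `p ∣ v_p(Δ)`

`W₀` a Weierstrass curve over `ℚ`, `E = W₀ / ℚbar`, `A | p`, `MulData A E p x0 c b' e0` with `x0, e0` Galois-fixed.
If `t ≠ 0` in `E[p]` is an eigenvector of inertia for the cyclotomic character then
* `x(t)` is not integral,
* `τ x - x ∈ ℕ t` for all `x ∈ E[p]`, `τ ∈ I`,
* every `σ ∈ I` fixing `ζ_p` and moving `x ∈ E[p]` moves some `b ∈ A ∩ ℚ(x)` by at least `ζ_p - 1`.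
-/

set_option autoImplicit false

namespace Fermat.Agent.HW.AtP

open WeierstrassCurve WeierstrassCurve.Affine WeierstrassCurve.Affine.Point
open Fermat.Agent.S05 Fermat.Agent.HW
open scoped WeierstrassCurve.Affine

local notation "Qb" => AlgebraicClosure ℚ

section group

variable {G : Type*} [AddCommGroup G] {p : ℕ}

lemma mem_of_zsmul_mem (hp : p.Prime) (L : AddSubgroup G) {x : G} (hpx : p • x = 0) {j : ℤ}
    (hj : ¬ (p : ℤ) ∣ j) (h : j • x ∈ L) : x ∈ L := by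
  have hcop : IsCoprime (p : ℤ) j :=
    (Prime.coprime_iff_not_dvd (Nat.prime_iff_prime_int.1 hp)).2 hj
  obtain ⟨a, b, hab⟩ := hcop
  have e : x = b • (j • x) := by
    rw [← mul_smul]
    have : b * j = 1 - a * p := by linear_combination hab
    rw [this, sub_smul, one_smul, mul_smul, natCast_zsmul, hpx, smul_zero, sub_zero]
  rw [e]
  exact L.zsmul_mem h b

lemma exists_nat_of_mem_zmultiples (hp : p.Prime) {t y : G} (hpt : p • t = 0)
    (hy : y ∈ AddSubgroup.zmultiples t) : ∃ k : ℕ, y = k • t := by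
  obtain ⟨n, rfl⟩ := AddSubgroup.mem_zmultiples_iff.1 hy
  have hp0 : (0 : ℤ) < p := by exact_mod_cast hp.pos
  have h1 : 0 ≤ n % p := Int.emod_nonneg _ hp0.ne'
  refine ⟨(n % p).toNat, ?_⟩
  have h4 : ((n % p).toNat : ℤ) = n % p := Int.toNat_of_nonneg h1
  rw [← natCast_zsmul, h4]
  conv_lhs => rw [← Int.mul_ediv_add_emod n p]
  rw [add_smul, mul_smul, smul_comm, natCast_zsmul, hpt, smul_zero, zero_add]

lemma nsmul_zsmul_zero {x : G} (h : p • x = 0) (j : ℤ) : p • (j • x) = 0 := by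
  rw [smul_comm, h, smul_zero]

lemma nsmul_map_sub_zero (f : G →+ G) {x : G} (h : p • x = 0) : p • (f x - x) = 0 := by
  rw [smul_sub, ← map_nsmul, h, _root_.map_zero, sub_zero]

lemma zsmul_map_sub (f : G →+ G) (j : ℤ) (x : G) : j • (f x - x) = f (j • x) - j • x := by
  rw [smul_sub, map_zsmul]

end group

variable {p : ℕ} {A : ValuationSubring Qb} (W₀ : WeierstrassCurve.Affine ℚ)

theorem galData_Q {σ : Qb ≃ₐ[ℚ] Qb} (hσ : σ ∈ A.inertiaSubgroupIn ℚ) :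
    GalData A (W₀⁄Qb) (σ : Qb →+* Qb) (Point.map (W' := W₀) σ.toAlgHom) := by
  refine ⟨?_, ?_⟩
  · intro Q hQ
    cases Q with
    | zero => exact absurd rfl hQ
    | some x y h =>
      rw [Point.map_some]
      exact ⟨some_ne_zero _, rfl, rfl⟩
  · intro x hx
    exact inertia_spec A σ hσ x hx

lemma smul_eq_map_Q (σ : Qb ≃ₐ[ℚ] Qb) (P : (W₀⁄Qb).Point) :
    σ • P = Point.map (W' := W₀) σ.toAlgHom P := rfl

lemma coord_fixed_Q {τ : Qb ≃ₐ[ℚ] Qb} {P : (W₀⁄Qb).Point} (hP : P ≠ 0) (hτ : τ • P = P) :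
    τ (xc P) = xc P ∧ τ (yc P) = yc P := by
  cases P with
  | zero => exact absurd rfl hP
  | some x y h =>
    have h1 : Point.map (W' := W₀) τ.toAlgHom (Point.some x y h) = Point.some x y h := hτ
    rw [Point.map_some] at h1
    have h2 := Point.some.inj h1
    exact ⟨h2.1, h2.2⟩

theorem integral_of_stable_line_Q (hp : p.Prime) (hp2 : p ≠ 2) (hA : A.LiesOverPrime p)
    (I : IntData A (W₀⁄Qb))
    {t P : (W₀⁄Qb).Point} (ht : t ≠ 0) (hpt : p • t = 0) (hxt : 1 < A.valuation (xc t))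
    (hstab : ∀ τ ∈ A.inertiaSubgroupIn ℚ, ∃ c : ℕ, τ • t = c • t)
    (hP : P ≠ 0) (hpP : p • P = 0) (hPt : ∀ k : ℕ, P ≠ k • t) :
    A.valuation (xc P) ≤ 1 := by
  classical
  have D := pData hp hp2 hA
  refine integral_of_not_mem_line I D ht hpt hxt hP hpP hPt ?_
  refine one_le_val_p_mul_of_fixed hp hA ?_ (one_lt_val_prod_lineX I D ht hxt)
  intro τ hτ
  obtain ⟨c, hc⟩ := hstab τ hτ
  exact prod_lineX_fixed hp (galData_Q W₀ hτ).hs ht hpt hc

variable {W₀}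

theorem fixData_Q {x0 e0 : Qb} (hx0 : ∀ σ : Qb ≃ₐ[ℚ] Qb, σ x0 = x0)
    (he0 : ∀ σ : Qb ≃ₐ[ℚ] Qb, σ e0 = e0) (σ : Qb ≃ₐ[ℚ] Qb) :
    FixData (σ : Qb →+* Qb) (W₀⁄Qb) x0 e0 :=
  ⟨σ.commutes _, σ.commutes _, hx0 σ, he0 σ⟩

theorem mul_main (hp : p.Prime) (hp2 : p ≠ 2) (hA : A.LiesOverPrime p) {x0 c b' e0 : Qb}
    (M : MulData A (W₀⁄Qb) p x0 c b' e0) (hx0 : ∀ σ : Qb ≃ₐ[ℚ] Qb, σ x0 = x0)
    (he0 : ∀ σ : Qb ≃ₐ[ℚ] Qb, σ e0 = e0) {ζ : Qb} (hζ : IsPrimitiveRoot ζ p)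
    {t : (W₀⁄Qb).Point} (ht : t ≠ 0) (hpt : p • t = 0)
    (hχ : ∀ τ ∈ A.inertiaSubgroupIn ℚ, ∀ c : ℕ, τ ζ = ζ ^ c → τ • t = c • t) :
    1 < A.valuation (xc t) ∧ ∀ x : (W₀⁄Qb).Point, p • x = 0 →
      (∀ τ ∈ A.inertiaSubgroupIn ℚ, ∃ k : ℕ, τ • x - x = k • t) ∧
      (∀ σ ∈ A.inertiaSubgroupIn ℚ, σ ζ = ζ → σ • x ≠ x →
        ∃ b : Qb, b ∈ A ∧ (∀ τ : Qb ≃ₐ[ℚ] Qb, τ • x = x → τ b = b) ∧
          A.valuation (ζ - 1) ≤ A.valuation (σ b - b)) := by
  have : NeZero p := ⟨hp.ne_zero⟩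
  have D := pData hp hp2 hA
  have hstab : ∀ τ ∈ A.inertiaSubgroupIn ℚ, ∃ c : ℕ, τ • t = c • t := by
    intro τ hτ
    have hpow : (τ ζ) ^ p = 1 := by rw [← map_pow, hζ.pow_eq_one, map_one]
    obtain ⟨c, -, hc⟩ := hζ.eq_pow_of_pow_eq_one hpow
    exact ⟨c, hχ τ hτ c hc.symm⟩
  -- `t` is not integral
  have hxt : 1 < A.valuation (xc t) := by
    obtain ⟨τ, hτ, hτζ⟩ := exists_inertia_zeta_ne hp hp2 hA hζ
    have hpow : (τ ζ) ^ p = 1 := by rw [← map_pow, hζ.pow_eq_one, map_one]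
    obtain ⟨c, -, hc⟩ := hζ.eq_pow_of_pow_eq_one hpow
    have hc1 : ¬ (p : ℤ) ∣ (c : ℤ) - 1 := by
      intro hd
      apply hτζ
      rw [← hc]
      have hc0 : 1 ≤ c := by
        rcases Nat.eq_zero_or_pos c with rfl | h
        · exfalso
          have h1 : (p : ℤ) ∣ 1 := by simpa using hd
          have h2 : p ∣ 1 := by exact_mod_cast h1
          have := hp.two_le
          have := Nat.dvd_one.1 h2
          omega
        · exact h
      obtain ⟨m, hm⟩ : p ∣ c - 1 := by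
        have : ((c - 1 : ℕ) : ℤ) = (c : ℤ) - 1 := by omega
        rw [← this] at hd
        exact_mod_cast hd
      have hc' : c = 1 + p * m := by omega
      rw [hc', pow_add, pow_mul, hζ.pow_eq_one, one_pow, pow_one, mul_one]
    exact nonintegral_of_eigen_mul M D (galData_Q W₀ hτ) (fixData_Q hx0 he0 τ) ht hpt hc1
      (hχ τ hτ c hc.symm)
  refine ⟨hxt, ?_⟩
  set L : AddSubgroup (W₀⁄Qb).Point := AddSubgroup.zmultiples t with hL
  have htL : t ∈ L := AddSubgroup.mem_zmultiples t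
  -- non-integral `p`-torsion points are in `L`
  have hL6 : ∀ R : (W₀⁄Qb).Point, R ≠ 0 → p • R = 0 → R ∉ L → A.valuation (xc R) ≤ 1 := by
    intro R hR hpR hRL
    refine integral_of_stable_line_Q W₀ hp hp2 hA M.I ht hpt hxt hstab hR hpR ?_
    rintro k rfl
    exact hRL (L.nsmul_mem htL k)
  -- a good multiple of a point outside `L`
  have hgood : ∀ x : (W₀⁄Qb).Point, p • x = 0 → x ∉ L →
      ∃ j : ℤ, ¬ (p : ℤ) ∣ j ∧ j • x ≠ 0 ∧ p • (j • x) = 0 ∧ IsGood A (W₀⁄Qb) x0 c e0 (j • x) := by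
    intro x hpx hxL
    have hx0' : x ≠ 0 := by
      rintro rfl
      exact hxL L.zero_mem
    have hz := zsmul_eq_zero_iff_dvd hp hx0' hpx
    have hpj : ∀ j : ℤ, p • (j • x) = 0 := fun j => nsmul_zsmul_zero hpx j
    obtain ⟨j, hj, hg⟩ := exists_good_multiple M D hx0' hpx (fun j hj =>
      hL6 (j • x) (fun h => hj ((hz j).1 h)) (hpj j) (fun h => hxL (mem_of_zsmul_mem hp L hpx hj h)))
    exact ⟨j, hj, fun h => hj ((hz j).1 h), hpj j, hg⟩
  have hmapL : ∀ τ ∈ A.inertiaSubgroupIn ℚ, ∀ y ∈ L, τ • y ∈ L := by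
    intro τ hτ y hy
    obtain ⟨n, rfl⟩ := AddSubgroup.mem_zmultiples_iff.1 hy
    obtain ⟨c, hc⟩ := hstab τ hτ
    rw [smul_eq_map_Q, map_zsmul, ← smul_eq_map_Q, hc]
    exact L.zsmul_mem (L.nsmul_mem htL c) n
  intro x hpx
  constructor
  · intro τ hτ
    apply exists_nat_of_mem_zmultiples hp hpt
    by_cases hxL : x ∈ L
    · exact L.sub_mem (hmapL τ hτ x hxL) hxL
    · obtain ⟨j, hj, hw0, hpw, hg⟩ := hgood x hpx hxL
      have hpd : p • (τ • x - x) = 0 := nsmul_map_sub_zero (Point.map (W' := W₀) τ.toAlgHom) hpx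
      apply mem_of_zsmul_mem hp L hpd hj
      have e : j • (τ • x - x) = τ • (j • x) - j • x :=
        zsmul_map_sub (Point.map (W' := W₀) τ.toAlgHom) j x
      rw [e]
      rcases hg.sub M D (galData_Q W₀ hτ) (fixData_Q hx0 he0 τ) hw0 with h | h
      · have h' : τ • (j • x) = j • x := h
        rw [h', sub_self]
        exact L.zero_mem
      · by_contra hnot
        have h' : 1 < A.valuation (xc (τ • (j • x) - j • x)) := h
        have hR0 : τ • (j • x) - j • x ≠ 0 := by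
          intro h0
          exact hnot (h0 ▸ L.zero_mem)
        have hpR : p • (τ • (j • x) - j • x) = 0 := by rw [← e]; exact nsmul_zsmul_zero hpd j
        exact absurd (hL6 _ hR0 hpR hnot) (not_le.2 h')
  · intro σ hσ hσζ hσx
    have hσt : σ • t = t := by
      have := hχ σ hσ 1 (by rw [hσζ, pow_one])
      rwa [one_smul] at this
    have hxL : x ∉ L := by
      intro hxL
      obtain ⟨n, rfl⟩ := AddSubgroup.mem_zmultiples_iff.1 hxL
      apply hσx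
      rw [smul_eq_map_Q, map_zsmul, ← smul_eq_map_Q, hσt]
    obtain ⟨j, hj, hw0, hpw, hg⟩ := hgood x hpx hxL
    have hpd : p • (σ • x - x) = 0 := nsmul_map_sub_zero (Point.map (W' := W₀) σ.toAlgHom) hpx
    have hσw : Point.map (W' := W₀) σ.toAlgHom (j • x) ≠ j • x := by
      intro h
      apply hσx
      have h1 : j • (σ • x - x) ∈ (⊥ : AddSubgroup (W₀⁄Qb).Point) := by
        rw [AddSubgroup.mem_bot]
        have e := zsmul_map_sub (Point.map (W' := W₀) σ.toAlgHom) j x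
        rw [h, sub_self] at e
        exact e
      have h2 := mem_of_zsmul_mem hp ⊥ hpd hj h1
      exact sub_eq_zero.1 (AddSubgroup.mem_bot.1 h2)
    have hlam : A.valuation (ζ - 1) ^ (p - 1) = A.valuation ((p : ℕ) : Qb) := by
      rw [← S36.valuation_one_sub_zeta_pow hp hA hζ, ← Valuation.map_neg, neg_sub]
    have hfixw : ∀ τ : Qb ≃ₐ[ℚ] Qb, τ • x = x → τ • (j • x) = j • x := by
      intro τ hτ
      rw [smul_eq_map_Q, map_zsmul, ← smul_eq_map_Q, hτ]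
    have hxw := hg.val_x M
    have hyw : A.valuation (yc (j • x)) ≤ 1 :=
      y_integral A M.I.h₁ M.I.h₂ M.I.h₃ M.I.h₄ M.I.h₆ hw0 hxw
    rcases hg.far M D (galData_Q W₀ hσ) (fixData_Q hx0 he0 σ) hw0 hpw hσw hlam with h | h | ⟨h1, h⟩
    · exact ⟨xc (j • x), (A.valuation_le_one_iff _).1 hxw,
        fun τ hτ => (coord_fixed_Q W₀ hw0 (hfixw τ hτ)).1, h⟩
    · exact ⟨yc (j • x), (A.valuation_le_one_iff _).1 hyw,
        fun τ hτ => (coord_fixed_Q W₀ hw0 (hfixw τ hτ)).2, h⟩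
    · refine ⟨(xc (j • x) - x0) / e0 ^ 2, (A.valuation_le_one_iff _).1 h1.le, fun τ hτ => ?_, h⟩
      rw [map_div₀, map_sub, map_pow, hx0, he0, (coord_fixed_Q W₀ hw0 (hfixw τ hτ)).1]

end Fermat.Agent.HW.AtP
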